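import Mathlib

/-!
# Torsion of a uniformised group

`natCard_torsion_of_periods`: a group which is the image of `ℂ^g` with discrete cocompact kernel
has exactly `n ^ (2g)` elements killed by `n`.
-/

set_option autoImplicit false
set_option linter.style.haveILetI false

noncomputable section

open Submodule

namespace FLTAgent.Pic0Tors

/-- A subgroup meeting every translate of a fixed ball spans the space. -/
theorem span_eq_top_of_bounded {V : Type*} [NormedAddCommGroup V] [NormedSpace ℝ V]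
    [FiniteDimensional ℝ V] (L : Submodule ℤ V) {R : ℝ}
    (h : ∀ v : V, ∃ w : V, ‖w‖ ≤ R ∧ v - w ∈ L) : span ℝ (L : Set V) = ⊤ := by
  set W := span ℝ (L : Set V)
  refine Submodule.eq_top_iff'.mpr fun v => ?_
  have hW : IsClosed (W : Set V) := W.closed_of_finiteDimensional
  rw [← SetLike.mem_coe, ← hW.closure_eq, Metric.mem_closure_iff]
  intro ε hε
  have hR : 0 ≤ R := by
    obtain ⟨w, hw, -⟩ := h 0
    exact (norm_nonneg w).trans hw
  obtain ⟨N, hN⟩ := exists_nat_gt (R / ε)
  have hN0 : (0 : ℝ) < N := (div_nonneg hR hε.le).trans_lt hN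
  obtain ⟨w, hw, hmem⟩ := h ((N : ℝ) • v)
  refine ⟨(N : ℝ)⁻¹ • ((N : ℝ) • v - w), W.smul_mem _ (subset_span hmem), ?_⟩
  rw [dist_eq_norm, smul_sub, inv_smul_smul₀ hN0.ne', sub_sub_cancel, norm_smul, norm_inv,
    Real.norm_natCast]
  rw [div_lt_iff₀ hε] at hN
  calc (N : ℝ)⁻¹ * ‖w‖ ≤ (N : ℝ)⁻¹ * R := mul_le_mul_of_nonneg_left hw (inv_nonneg.mpr hN0.le)
    _ < (N : ℝ)⁻¹ * ((N : ℝ) * ε) := mul_lt_mul_of_pos_left hN (inv_pos.mpr hN0)
    _ = ε := by rw [← mul_assoc, inv_mul_cancel₀ hN0.ne', one_mul]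

/-- The `n`-torsion of a group uniformised by `ℂ^g` with a lattice kernel. -/
theorem natCard_torsion_of_periods {g : ℕ} {A : Type*} [AddCommGroup A] (E : (Fin g → ℂ) →+ A)
    (hsurj : Function.Surjective E) (hdisc : ∃ δ > 0, ∀ v, ‖v‖ < δ → E v = 0 → v = 0)
    (hbdd : ∃ R : ℝ, ∀ v, ∃ w, ‖w‖ ≤ R ∧ E w = E v) (n : ℕ) [NeZero n] :
    Nat.card {x : A // (n : ℤ) • x = 0} = n ^ (2 * g) := by
  classical
  set L : Submodule ℤ (Fin g → ℂ) := AddSubgroup.toIntSubmodule E.ker with hL
  have hmem : ∀ v, v ∈ L ↔ E v = 0 := fun v => Iff.rfl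
  haveI : DiscreteTopology L := by
    obtain ⟨δ, hδ, hd⟩ := hdisc
    refine discreteTopology_iff_isOpen_singleton_zero.mpr ?_
    have e : ({0} : Set L) = (fun v : L => (v : Fin g → ℂ)) ⁻¹' Metric.ball 0 δ := by
      ext v
      simp only [Set.mem_singleton_iff, Set.mem_preimage, Metric.mem_ball, dist_zero_right]
      exact ⟨fun hv => by simp [hv, hδ], fun hv => Subtype.ext (hd _ hv ((hmem _).mp v.2))⟩
    rw [e]
    exact Metric.isOpen_ball.preimage continuous_subtype_val
  haveI : IsZLattice ℝ L := ⟨by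
    obtain ⟨R, hR⟩ := hbdd
    refine span_eq_top_of_bounded L (R := R) fun v => ?_
    obtain ⟨w, hw, he⟩ := hR v
    exact ⟨w, hw, (hmem _).mpr (by rw [map_sub, he, sub_self])⟩⟩
  haveI := ZLattice.module_finite ℝ L
  haveI := ZLattice.module_free ℝ L
  have hrank : Module.finrank ℤ L = 2 * g := by
    rw [ZLattice.rank ℝ L, ← Module.finrank_mul_finrank ℝ ℂ (Fin g → ℂ), Complex.finrank_real_complex,
      Module.finrank_fin_fun]
  let b : Module.Basis (Fin (2 * g)) ℤ L := (Module.finBasisOfFinrankEq ℤ L hrank)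
  let B : Module.Basis (Fin (2 * g)) ℝ (Fin g → ℂ) := b.ofZLatticeBasis ℝ L
  have hn : (n : ℝ) ≠ 0 := Nat.cast_ne_zero.mpr (NeZero.ne n)
  -- the point with prescribed coordinates divided by `n`
  let pt : (Fin (2 * g) → ℤ) → (Fin g → ℂ) := fun m => ∑ i, ((m i : ℝ) / n) • B i
  have hcoord : ∀ m i, B.repr (pt m) i = (m i : ℝ) / n := fun m i => by
    simp only [pt, B.repr_sum_self]
  have hnsmul : ∀ m, (n : ℤ) • pt m ∈ L := fun m => by
    have e : (n : ℤ) • pt m = ((∑ i, m i • b i : L) : Fin g → ℂ) := by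
      rw [AddSubmonoidClass.coe_finsetSum, Finset.smul_sum]
      refine Finset.sum_congr rfl fun i _ => ?_
      rw [SetLike.val_smul, ← Module.Basis.ofZLatticeBasis_apply ℝ L b i,
        ← Int.cast_smul_eq_zsmul ℝ (n : ℤ), smul_smul, ← Int.cast_smul_eq_zsmul ℝ (m i)]
      congr 1
      push_cast
      field_simp
    rw [e]
    exact Subtype.coe_prop _
  let φ : (Fin (2 * g) → ZMod n) → {x : A // (n : ℤ) • x = 0} := fun c =>
    ⟨E (pt fun i => ((c i).val : ℤ)), by rw [← map_zsmul]; exact (hmem _).mp (hnsmul _)⟩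
  have hL_coord : ∀ v ∈ L, ∀ i, ∃ k : ℤ, B.repr v i = k := fun v hv i =>
    ⟨b.repr ⟨v, hv⟩ i, b.ofZLatticeBasis_repr_apply ℝ L ⟨v, hv⟩ i⟩
  have hbij : Function.Bijective φ := by
    constructor
    · intro c c' h
      have h' : pt (fun i => ((c i).val : ℤ)) - pt (fun i => ((c' i).val : ℤ)) ∈ L := by
        rw [hmem, map_sub, sub_eq_zero]; exact congrArg Subtype.val h
      funext i
      obtain ⟨k, hk⟩ := hL_coord _ h' i
      rw [map_sub, Finsupp.sub_apply, hcoord, hcoord, ← sub_div, div_eq_iff hn] at hk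
      have hk' : ((c i).val : ℤ) - (c' i).val = k * n := by exact_mod_cast hk
      have := congrArg (fun t : ℤ => (t : ZMod n)) hk'
      simpa [sub_eq_zero] using this
    · rintro ⟨x, hx⟩
      obtain ⟨v, rfl⟩ := hsurj x
      have hv : (n : ℤ) • v ∈ L := by rw [hmem, map_zsmul]; exact hx
      choose m hm using hL_coord _ hv
      refine ⟨fun i => (m i : ZMod n), Subtype.ext ?_⟩
      show E (pt fun i => (((m i : ZMod n)).val : ℤ)) = E v
      rw [← sub_eq_zero, ← map_sub, ← hmem]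
      choose q hq using fun i => (ZMod.intCast_eq_intCast_iff_dvd_sub (m i)
        (((m i : ZMod n).val : ℕ) : ℤ) n).mp (by rw [Int.cast_natCast, ZMod.natCast_zmod_val])
      have e : pt (fun i => (((m i : ZMod n)).val : ℤ)) - v = ((∑ i, q i • b i : L) : Fin g → ℂ) := by
        refine B.ext_elem fun i => ?_
        rw [AddSubmonoidClass.coe_finsetSum, map_sub, Finsupp.sub_apply, hcoord]
        have h1 := hm i
        rw [← Int.cast_smul_eq_zsmul ℝ (n : ℤ), map_smul, Finsupp.smul_apply, smul_eq_mul] at h1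
        have h2 : B.repr (∑ j, ((q j • b j : L) : Fin g → ℂ)) i = q i := by
          rw [show (∑ j, ((q j • b j : L) : Fin g → ℂ)) = ∑ j, (q j : ℝ) • B j from
            Finset.sum_congr rfl fun j _ => by
              rw [SetLike.val_smul, ← Module.Basis.ofZLatticeBasis_apply ℝ L b j,
                Int.cast_smul_eq_zsmul], B.repr_sum_self]
        rw [h2, div_sub' hn, div_eq_iff hn]
        have h3 := congrArg (fun t : ℤ => (t : ℝ)) (hq i)
        push_cast at h3 h1 ⊢
        linear_combination h3 - h1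
      rw [e]
      exact Subtype.coe_prop _
  rw [← Nat.card_eq_of_bijective φ hbij, Nat.card_fun, Nat.card_zmod, Nat.card_fin]

end FLTAgent.Pic0Tors
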