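import Mathlib
import Fermat.Agent.FF.RiemannRoch
import Fermat.Agent.FF.Differentials
import Fermat.Agent.Pic0Tors.Curve.Deriv

/-!
# Holomorphic differentials and classes of degree zero

A fixed chart `chartOf v` at each place, a basis `hol` of the holomorphic differentials with its
densities `dens` and primitives `prim` in the charts, and `cls`: the class in `Pic⁰` of a divisor
corrected at a base place.
-/

set_option autoImplicit false
set_option linter.unusedSectionVars false

noncomputable section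

open AlgebraicCurve Filter Topology

namespace FLTAgent.Pic0Tors

variable {F : Type} [Field F] [Algebra ℂ F] [FF.IsFF ℂ F]

/-- A fixed chart at every place. -/
def chartOf (v : Place ℂ F) : BranchChart v := (exists_branchChart v).some

namespace BranchChart

variable {v : Place ℂ F} (c : BranchChart v)

theorem isSep : FF.IsSep ℂ c.x :=
  ⟨c.transcendental, FF.finiteDimensional_adjoin_of_transcendental c.transcendental,
    FF.isSeparable_adjoin_of_charZero c.transcendental⟩

theorem ordDifferential_D_x {z : ℂ} (hz : z ∈ Metric.ball (0 : ℂ) c.r) :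
    (c.pt z).ordDifferential (KaehlerDifferential.D ℂ F c.x) = 0 := by
  have h1 := c.ord_x_sub hz
  have h := (FF.ordDifferential_D_of_ord_cast_ne_zero (c.pt z)
    (f := c.x - algebraMap ℂ F z) (by rw [h1]; norm_num)).2
  rwa [FF.D_sub_algebraMap, h1] at h

/-- The density of a differential in the chart. -/
def coef (ω : Ω[F⁄ℂ]) : F := (FF.exists_eq_smul_D c.isSep ω).choose

theorem coef_spec (ω : Ω[F⁄ℂ]) : ω = c.coef ω • KaehlerDifferential.D ℂ F c.x :=
  (FF.exists_eq_smul_D c.isSep ω).choose_spec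

theorem coef_eq {ω : Ω[F⁄ℂ]} {q : F} (h : ω = q • KaehlerDifferential.D ℂ F c.x) :
    c.coef ω = q :=
  smul_left_injective F c.D_x_ne_zero ((c.coef_spec ω).symm.trans h)

theorem coef_add (ω η : Ω[F⁄ℂ]) : c.coef (ω + η) = c.coef ω + c.coef η :=
  c.coef_eq (by rw [add_smul, ← c.coef_spec, ← c.coef_spec])

theorem coef_smul (a : ℂ) (ω : Ω[F⁄ℂ]) : c.coef (a • ω) = algebraMap ℂ F a * c.coef ω :=
  c.coef_eq (by rw [mul_smul, ← c.coef_spec, algebraMap_smul])

theorem coef_zero : c.coef (0 : Ω[F⁄ℂ]) = 0 := c.coef_eq (zero_smul _ _).symm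

theorem coef_sum {ι : Type*} (s : Finset ι) (ω : ι → Ω[F⁄ℂ]) :
    c.coef (∑ i ∈ s, ω i) = ∑ i ∈ s, c.coef (ω i) :=
  c.coef_eq (by rw [Finset.sum_smul]; exact Finset.sum_congr rfl fun i _ => c.coef_spec _)

theorem coef_ne_zero {ω : Ω[F⁄ℂ]} (h : ω ≠ 0) : c.coef ω ≠ 0 := fun h0 =>
  h (by rw [c.coef_spec ω, h0, zero_smul])

theorem ord_coef {ω : Ω[F⁄ℂ]} (h : ω ≠ 0) {z : ℂ} (hz : z ∈ Metric.ball (0 : ℂ) c.r) :
    (c.pt z).ord (c.coef ω) = (c.pt z).ordDifferential ω := by
  conv_rhs => rw [c.coef_spec ω]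
  rw [FF.ordDifferential_smul_of_ne_zero _ (c.coef_ne_zero h) c.D_x_ne_zero,
    c.ordDifferential_D_x hz, add_zero]

theorem ord_coef_nonneg {ω : Ω[F⁄ℂ]} (h : ω ∈ FF.differentialsGE (0 : Divisor ℂ F)) {z : ℂ}
    (hz : z ∈ Metric.ball (0 : ℂ) c.r) : 0 ≤ (c.pt z).ord (c.coef ω) := by
  rcases eq_or_ne ω 0 with rfl | h0
  · rw [c.coef_zero, Place.ord_zero]
  · rw [c.ord_coef h0 hz]
    exact (h.resolve_left h0) _

end BranchChart

variable (F)

/-- A basis of the holomorphic differentials. -/
def holBasis : Module.Basis (Fin (genusFF ℂ F)) ℂ ↥(FF.differentialsGE (0 : Divisor ℂ F)) :=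
  Module.finBasisOfFinrankEq ℂ _ FF.finrank_differentialsGE_zero

/-- The basis differentials. -/
def hol (i : Fin (genusFF ℂ F)) : Ω[F⁄ℂ] := (holBasis F i : Ω[F⁄ℂ])

theorem hol_mem (i : Fin (genusFF ℂ F)) : hol F i ∈ FF.differentialsGE (0 : Divisor ℂ F) :=
  (holBasis F i).2

theorem hol_linearIndependent : LinearIndependent ℂ (hol F) :=
  (holBasis F).linearIndependent.map' (Submodule.subtype _) (Submodule.ker_subtype _)

variable {F}

/-- The densities of the basis differentials in the chart at `v`. -/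
def dens (v : Place ℂ F) (i : Fin (genusFF ℂ F)) : ℂ → ℂ :=
  (chartOf v).fn ((chartOf v).coef (hol F i))

theorem analyticAt_dens (v : Place ℂ F) (i : Fin (genusFF ℂ F)) {z : ℂ}
    (hz : z ∈ Metric.ball (0 : ℂ) (chartOf v).r) : AnalyticAt ℂ (dens v i) z :=
  (chartOf v).analyticAt_fn hz ((chartOf v).ord_coef_nonneg (hol_mem F i) hz)

theorem exists_prim (v : Place ℂ F) (i : Fin (genusFF ℂ F)) :
    ∃ I : ℂ → ℂ, I 0 = 0 ∧
      ∀ z ∈ Metric.ball (0 : ℂ) (chartOf v).r, HasDerivAt I (dens v i z) z := by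
  have hd : DifferentiableOn ℂ (dens v i) (Metric.ball 0 (chartOf v).r) := fun z hz =>
    (analyticAt_dens v i hz).differentiableAt.differentiableWithinAt
  exact hd.isExactOn_ball.with_val_at 0 0

/-- The primitives of the basis differentials in the chart at `v`. -/
def prim (v : Place ℂ F) (i : Fin (genusFF ℂ F)) : ℂ → ℂ := (exists_prim v i).choose

theorem prim_zero (v : Place ℂ F) (i : Fin (genusFF ℂ F)) : prim v i 0 = 0 :=
  (exists_prim v i).choose_spec.1

theorem hasDerivAt_prim (v : Place ℂ F) (i : Fin (genusFF ℂ F)) {z : ℂ}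
    (hz : z ∈ Metric.ball (0 : ℂ) (chartOf v).r) : HasDerivAt (prim v i) (dens v i z) z :=
  (exists_prim v i).choose_spec.2 z hz

theorem analyticAt_prim (v : Place ℂ F) (i : Fin (genusFF ℂ F)) {z : ℂ}
    (hz : z ∈ Metric.ball (0 : ℂ) (chartOf v).r) : AnalyticAt ℂ (prim v i) z := by
  have hd : DifferentiableOn ℂ (prim v i) (Metric.ball 0 (chartOf v).r) := fun u hu =>
    (hasDerivAt_prim v i hu).differentiableAt.differentiableWithinAt
  exact hd.analyticAt (Metric.isOpen_ball.mem_nhds hz)

theorem hasStrictDerivAt_prim (v : Place ℂ F) (i : Fin (genusFF ℂ F)) {z : ℂ}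
    (hz : z ∈ Metric.ball (0 : ℂ) (chartOf v).r) : HasStrictDerivAt (prim v i) (dens v i z) z := by
  have h := (analyticAt_prim v i hz).hasStrictDerivAt
  rwa [(hasDerivAt_prim v i hz).deriv] at h

/-! ### Classes of degree zero -/

variable (F)

/-- A base place. -/
def basePlace : Place ℂ F := FF.place_nonempty.some

/-- Correct a divisor to degree zero at the base place. -/
def toDegZero : Divisor ℂ F →+ Divisor.degZero (K := ℂ) (F := F) where
  toFun D := ⟨D - Finsupp.single (basePlace F) (Divisor.degree D), by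
    rw [Divisor.mem_degZero, map_sub, Divisor.degree_single, FF.deg_eq_one, Nat.cast_one, mul_one,
      sub_self]⟩
  map_zero' := Subtype.ext (by simp)
  map_add' D E := Subtype.ext (by
    show D + E - _ = (D - _) + (E - _)
    rw [map_add, Finsupp.single_add]
    abel)

/-- The class of a divisor, corrected to degree zero. -/
def cls : Divisor ℂ F →+ Pic0 ℂ F := (QuotientAddGroup.mk' _).comp (toDegZero F)

variable {F}

theorem cls_of_degree_zero (D : Divisor.degZero (K := ℂ) (F := F)) :
    cls F (D : Divisor ℂ F) = Pic0.mk D := by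
  show Pic0.mk (toDegZero F (D : Divisor ℂ F)) = _
  congr 1
  refine Subtype.ext ?_
  show (D : Divisor ℂ F) - _ = _
  rw [Divisor.mem_degZero.mp D.2, Finsupp.single_zero, sub_zero]

theorem cls_eq_zero {D : Divisor ℂ F} (h : Divisor.IsPrincipal D) : cls F D = 0 := by
  have hd : Divisor.degree D = 0 := FF.degree_eq_of_isPrincipal h
  rw [show D = ((⟨D, Divisor.mem_degZero.mpr hd⟩ : Divisor.degZero (K := ℂ) (F := F)) :
    Divisor ℂ F) from rfl, cls_of_degree_zero]
  exact (QuotientAddGroup.eq_zero_iff _).mpr (AddSubgroup.mem_addSubgroupOf.mpr h)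

theorem isPrincipal_of_cls_eq_zero {D : Divisor ℂ F} (hd : Divisor.degree D = 0)
    (h : cls F D = 0) : Divisor.IsPrincipal D := by
  rw [show D = ((⟨D, Divisor.mem_degZero.mpr hd⟩ : Divisor.degZero (K := ℂ) (F := F)) :
    Divisor ℂ F) from rfl, cls_of_degree_zero] at h
  exact AddSubgroup.mem_addSubgroupOf.mp ((QuotientAddGroup.eq_zero_iff _).mp h)

theorem cls_eq_of_isPrincipal_sub {D E : Divisor ℂ F} (h : Divisor.IsPrincipal (D - E)) :
    cls F D = cls F E := by
  rw [← sub_eq_zero, ← map_sub]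
  exact cls_eq_zero h

end FLTAgent.Pic0Tors
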