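import Mathlib
import Fermat.Agent.Pic0Tors.Abel.Setup

/-!
# Tuples of places in charts

The Abel–Jacobi map `theta` near a tuple of places and its derivative `dTheta`. The rank
criterion: the divisor of the tuple is non-special iff the derivative is onto
(`hOne_eq_zero_of_surjective`, `surjective_of_hOne_eq_zero`).
-/

set_option autoImplicit false
set_option linter.unusedSectionVars false

noncomputable section

open AlgebraicCurve Filter Topology

namespace FLTAgent.Pic0Tors

variable {F : Type} [Field F] [Algebra ℂ F] [FF.IsFF ℂ F]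
variable {M : ℕ} (P : Fin M → Place ℂ F)

/-- The places with coordinates `z` in the charts at `P`. -/
def pts (z : Fin M → ℂ) (j : Fin M) : Place ℂ F := (chartOf (P j)).pt (z j)

/-- The divisor with coordinates `z`. -/
def dvs (z : Fin M → ℂ) : Divisor ℂ F := ∑ j, Finsupp.single (pts P z j) 1

/-- The Abel–Jacobi map in the charts. -/
def theta (z : Fin M → ℂ) : Fin (genusFF ℂ F) → ℂ := fun i => ∑ j, prim (P j) i (z j)

/-- The derivative of `theta`. -/
def dTheta (z : Fin M → ℂ) : (Fin M → ℂ) →L[ℂ] (Fin (genusFF ℂ F) → ℂ) :=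
  ContinuousLinearMap.pi fun i => ∑ j, dens (P j) i (z j) • ContinuousLinearMap.proj j

/-- All coordinates lie in the charts. -/
def InBalls (z : Fin M → ℂ) : Prop := ∀ j, z j ∈ Metric.ball (0 : ℂ) (chartOf (P j)).r

theorem inBalls_zero : InBalls P 0 := fun j => (chartOf (P j)).zero_mem

theorem eventually_inBalls {z : Fin M → ℂ} (hz : InBalls P z) : ∀ᶠ x in 𝓝 z, InBalls P x :=
  eventually_all.mpr fun j =>
    (continuous_apply j).continuousAt.preimage_mem_nhds (Metric.isOpen_ball.mem_nhds (hz j))

theorem pts_zero : pts P (0 : Fin M → ℂ) = P := funext fun j => (chartOf (P j)).pt_zero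

theorem dvs_zero : dvs P (0 : Fin M → ℂ) = ∑ j, Finsupp.single (P j) 1 := by
  rw [dvs, pts_zero]

theorem theta_zero : theta P (0 : Fin M → ℂ) = 0 :=
  funext fun i => Finset.sum_eq_zero fun j _ => prim_zero (P j) i

theorem dTheta_apply (z d : Fin M → ℂ) (i : Fin (genusFF ℂ F)) :
    dTheta P z d i = ∑ j, dens (P j) i (z j) * d j := by
  simp [dTheta, ContinuousLinearMap.pi_apply]

theorem hasStrictFDerivAt_theta {z : Fin M → ℂ} (hz : InBalls P z) :
    HasStrictFDerivAt (theta P) (dTheta P z) z := by
  refine hasStrictFDerivAt_pi.mpr fun i => ?_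
  exact HasStrictFDerivAt.fun_sum fun j _ =>
    (hasStrictDerivAt_prim (P j) i (hz j)).comp_hasStrictFDerivAt z (hasStrictFDerivAt_apply j z)

theorem continuousAt_dTheta {z : Fin M → ℂ} (hz : InBalls P z) :
    ContinuousAt (dTheta P) z := by
  have h : ∀ i j, ContinuousAt (fun x : Fin M → ℂ =>
      dens (P j) i (x j) • (ContinuousLinearMap.proj (R := ℂ) (φ := fun _ : Fin M => ℂ) j)) z :=
    fun i j => (ContinuousAt.comp (x := z) (f := fun x : Fin M → ℂ => x j)
      (analyticAt_dens (P j) i (hz j)).continuousAt (continuous_apply j).continuousAt).smul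
      continuousAt_const
  have e : dTheta P = fun x => ∑ i, (ContinuousLinearMap.single ℂ
      (fun _ : Fin (genusFF ℂ F) => ℂ) i).comp
      (∑ j, dens (P j) i (x j) • ContinuousLinearMap.proj j) := by
    funext x
    refine ContinuousLinearMap.ext fun d => funext fun i => ?_
    simp only [dTheta_apply, sum_apply, Finset.sum_apply, ContinuousLinearMap.comp_apply,
      ContinuousLinearMap.single_apply, smul_apply, ContinuousLinearMap.proj_apply,
      smul_eq_mul, Finset.sum_pi_single, Finset.mem_univ, if_true]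
  rw [e]
  refine tendsto_finsetSum _ fun i _ => ?_
  exact (continuous_const.clm_comp continuous_id).continuousAt.comp
    (tendsto_finsetSum _ fun j _ => h i j)

theorem degree_dvs (z : Fin M → ℂ) : Divisor.degree (dvs P z) = M := by
  simp [dvs, map_sum, Divisor.degree_single, FF.deg_eq_one]

theorem dvs_nonneg (z : Fin M → ℂ) : 0 ≤ dvs P z :=
  Finset.sum_nonneg fun _ _ => Finsupp.single_nonneg.mpr zero_le_one

theorem dvs_apply_pts {z : Fin M → ℂ} (hinj : Function.Injective (pts P z)) (j : Fin M) :
    dvs P z (pts P z j) = 1 := by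
  classical
  rw [dvs, Finsupp.finsetSum_apply, Finset.sum_eq_single j]
  · simp
  · exact fun k _ hk => Finsupp.single_eq_of_ne fun h => hk (hinj h).symm
  · exact fun h => absurd (Finset.mem_univ j) h

theorem dvs_apply_of_ne {z : Fin M → ℂ} {v : Place ℂ F} (h : ∀ j, pts P z j ≠ v) :
    dvs P z v = 0 := by
  classical
  rw [dvs, Finsupp.finsetSum_apply]
  exact Finset.sum_eq_zero fun j _ => Finsupp.single_eq_of_ne (h j).symm

/-! ### Values of sums of regular functions -/

theorem value_linComb {ι : Type*} (s : Finset ι) (w : Place ℂ F) (a : ι → ℂ) (f : ι → F)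
    (hf : ∀ i ∈ s, f i ∈ w.toValuationSubring) :
    (∑ i ∈ s, algebraMap ℂ F (a i) * f i) ∈ w.toValuationSubring ∧
      value w (∑ i ∈ s, algebraMap ℂ F (a i) * f i) = ∑ i ∈ s, a i * value w (f i) := by
  classical
  induction s using Finset.induction_on with
  | empty => simp [value_zero]
  | insert i s hi ih =>
    obtain ⟨hm, hv⟩ := ih fun k hk => hf k (Finset.mem_insert_of_mem hk)
    have hfi := hf i (Finset.mem_insert_self i s)
    have hmi : algebraMap ℂ F (a i) * f i ∈ w.toValuationSubring :=
      mul_mem (w.algebraMap_mem' _) hfi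
    rw [Finset.sum_insert hi, Finset.sum_insert hi]
    refine ⟨add_mem hmi hm, ?_⟩
    rw [value_add w hmi hm, value_mul w (w.algebraMap_mem' _) hfi, value_algebraMap, hv]

theorem value_eq_zero_iff_ord (w : Place ℂ F) {f : F} (hf0 : f ≠ 0) (hf : 0 ≤ w.ord f) :
    value w f = 0 ↔ 0 < w.ord f := by
  rw [value_eq_zero_iff w ((FF.mem_iff_ord_nonneg w hf0).mpr hf), FF.val_eq_exp w hf0,
    ← WithZero.exp_zero, WithZero.exp_lt_exp]
  omega

theorem mem_of_ord_nonneg (w : Place ℂ F) {f : F} (hf : 0 ≤ w.ord f) :
    f ∈ w.toValuationSubring :=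
  (FF.mem_iff w f).mpr (Or.inr hf)

/-- If the derivative of `theta` is onto, the divisor is non-special. -/
theorem hOne_eq_zero_of_surjective {z : Fin M → ℂ} (hz : InBalls P z)
    (hinj : Function.Injective (pts P z)) (hs : Function.Surjective (dTheta P z)) :
    FF.hOne (dvs P z) = 0 := by
  classical
  suffices h : FF.differentialsGE (dvs P z) = ⊥ by
    have h1 := FF.finrank_differentialsGE (dvs P z)
    rw [h, finrank_bot] at h1
    exact h1.symm
  rw [eq_bot_iff]
  intro ω hω
  rw [Submodule.mem_bot]
  by_contra hne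
  have hω' := hω.resolve_left hne
  have h0 : ω ∈ FF.differentialsGE (0 : Divisor ℂ F) := Or.inr fun v => by
    have h1 := hω' v
    have h2 := Finsupp.le_def.mp (dvs_nonneg P z) v
    simp only [Finsupp.coe_zero, Pi.zero_apply] at h2 ⊢
    omega
  set a := fun i => (holBasis F).repr ⟨ω, h0⟩ i with ha
  have hsum : ω = ∑ i, a i • hol F i := by
    have h1 := congrArg (Submodule.subtype _) ((holBasis F).sum_repr ⟨ω, h0⟩)
    rw [map_sum] at h1
    exact h1.symm.trans (Finset.sum_congr rfl fun i _ => rfl)
  have key : ∀ j, ∑ i, a i * dens (P j) i (z j) = 0 := by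
    intro j
    have h1 := (value_linComb Finset.univ (pts P z j) a
      (fun i => (chartOf (P j)).coef (hol F i))
      fun i _ => mem_of_ord_nonneg _ ((chartOf (P j)).ord_coef_nonneg (hol_mem F i) (hz j))).2
    have e : ∑ i, algebraMap ℂ F (a i) * (chartOf (P j)).coef (hol F i) = (chartOf (P j)).coef ω := by
      rw [hsum, (chartOf (P j)).coef_sum]
      simp only [(chartOf (P j)).coef_smul]
    rw [e] at h1
    have hord : (pts P z j).ord ((chartOf (P j)).coef ω) = (pts P z j).ordDifferential ω :=
      (chartOf (P j)).ord_coef hne (hz j)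
    have hpos := hω' (pts P z j)
    rw [dvs_apply_pts P hinj] at hpos
    have hv := (value_eq_zero_iff_ord (pts P z j) ((chartOf (P j)).coef_ne_zero hne)
      (by omega)).mpr (by omega)
    rw [hv] at h1
    exact h1.symm
  have ha0 : ∀ i, a i = 0 := by
    intro i
    obtain ⟨d, hd⟩ := hs (Pi.single i 1)
    have h1 : ∑ k, a k * dTheta P z d k = a i := by
      rw [hd, Finset.sum_eq_single i (fun k _ hk => by simp [hk])
        (fun h => absurd (Finset.mem_univ i) h)]
      simp
    rw [← h1]
    simp only [dTheta_apply, Finset.mul_sum]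
    rw [Finset.sum_comm]
    refine Finset.sum_eq_zero fun j _ => ?_
    simp only [← mul_assoc]
    rw [← Finset.sum_mul, key j, zero_mul]
  exact hne (by rw [hsum]; simp [ha0])

/-- At a non-special tuple the derivative of `theta` is onto. -/
theorem surjective_of_hOne_eq_zero (hinj : Function.Injective P)
    (h : FF.hOne (∑ j, Finsupp.single (P j) 1) = 0) : Function.Surjective (dTheta P 0) := by
  classical
  by_contra hs
  have hlt : LinearMap.range (dTheta P 0).toLinearMap < ⊤ :=
    lt_top_iff_ne_top.mpr fun h' => hs (LinearMap.range_eq_top.mp h')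
  obtain ⟨φ, hφ, hle⟩ := Submodule.exists_le_ker_of_lt_top _ hlt
  set a := fun i => φ (Pi.single i 1) with ha
  have hφa : ∀ x, φ x = ∑ i, a i * x i := by
    intro x
    conv_lhs => rw [← Finset.univ_sum_single x, map_sum]
    refine Finset.sum_congr rfl fun i _ => ?_
    rw [ha, show Pi.single i (x i) = x i • Pi.single (M := fun _ => ℂ) i 1 by
      rw [← Pi.single_smul, smul_eq_mul, mul_one], map_smul, smul_eq_mul, mul_comm]
  set ω := ∑ i, a i • hol F i with hω
  have hω0 : ω ≠ 0 := fun h0 => hφ (LinearMap.ext fun x => by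
    rw [hφa, LinearMap.zero_apply]
    exact Finset.sum_eq_zero fun i _ => by
      rw [Fintype.linearIndependent_iff.mp (hol_linearIndependent F) a h0 i, zero_mul])
  have h0 : ω ∈ FF.differentialsGE (0 : Divisor ℂ F) :=
    Submodule.sum_mem _ fun i _ => Submodule.smul_mem _ _ (hol_mem F i)
  have hinj0 : Function.Injective (pts P 0) := by rwa [pts_zero]
  have hmem : ω ∈ FF.differentialsGE (dvs P 0) := Or.inr fun v => by
    by_cases hv : ∃ j, pts P 0 j = v
    · obtain ⟨j, rfl⟩ := hv
      rw [dvs_apply_pts P hinj0]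
      have hd := LinearMap.mem_ker.mp
        (hle (LinearMap.mem_range_self (dTheta P 0).toLinearMap (Pi.single j 1)))
      rw [hφa] at hd
      have h1 := (value_linComb Finset.univ (pts P 0 j) a
        (fun i => (chartOf (P j)).coef (hol F i))
        fun i _ => mem_of_ord_nonneg _
          ((chartOf (P j)).ord_coef_nonneg (hol_mem F i) (inBalls_zero P j))).2
      have e : ∑ i, algebraMap ℂ F (a i) * (chartOf (P j)).coef (hol F i) =
          (chartOf (P j)).coef ω := by
        rw [hω, (chartOf (P j)).coef_sum]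
        simp only [(chartOf (P j)).coef_smul]
      have hz : ∀ i, dTheta P 0 (Pi.single j 1) i = dens (P j) i 0 := fun i => by
        rw [dTheta_apply, Finset.sum_eq_single j (fun k _ hk => by simp [hk])
          (fun h' => absurd (Finset.mem_univ j) h')]
        simp
      have hv0 : value (pts P 0 j) ((chartOf (P j)).coef ω) = 0 := by
        rw [← e, h1, ← hd]
        exact Finset.sum_congr rfl fun i _ => congrArg (a i * ·) (hz i).symm
      have hord : (pts P 0 j).ord ((chartOf (P j)).coef ω) = (pts P 0 j).ordDifferential ω :=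
        (chartOf (P j)).ord_coef hω0 (inBalls_zero P j)
      have hnn : 0 ≤ (pts P 0 j).ord ((chartOf (P j)).coef ω) :=
        (chartOf (P j)).ord_coef_nonneg h0 (inBalls_zero P j)
      have := (value_eq_zero_iff_ord _ ((chartOf (P j)).coef_ne_zero hω0) hnn).mp hv0
      omega
    · rw [dvs_apply_of_ne P fun j hj => hv ⟨j, hj⟩]
      exact (h0.resolve_left hω0) v
  have hbot : Module.finrank ℂ ↥(FF.differentialsGE (dvs P 0)) = 0 := by
    rw [FF.finrank_differentialsGE, dvs_zero]
    exact h
  exact hω0 ((Submodule.eq_bot_iff _).mp (Submodule.finrank_eq_zero.mp hbot) ω hmem)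

theorem eventually_injective_pts (hinj : Function.Injective P) :
    ∀ᶠ z in 𝓝 (0 : Fin M → ℂ), Function.Injective (pts P z) := by
  classical
  have key : ∀ j k : Fin M, j ≠ k →
      ∀ᶠ z in 𝓝 (0 : Fin M → ℂ), pts P z j ≠ pts P z k := by
    intro j k hjk
    obtain ⟨f, hf0, hf⟩ := FF.exists_forall_ord_eq {P j, P k}
      (fun w => if w = P j then (1 : ℤ) else 0)
    have hfj : (P j).ord f = 1 := by rw [hf _ (by simp), if_pos rfl]
    have hfk : (P k).ord f = 0 := by rw [hf _ (by simp), if_neg fun h => hjk (hinj h).symm]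
    have hc : ∀ l : Fin M, 0 ≤ (P l).ord f →
        Tendsto (fun z : Fin M → ℂ => value (pts P z l) f) (𝓝 0) (𝓝 (value (P l) f)) := by
      intro l hl
      have h1 := ((chartOf (P l)).analyticAt_fn (f := f) (chartOf (P l)).zero_mem
        (by rwa [(chartOf (P l)).pt_zero])).continuousAt.tendsto.comp
        ((continuous_apply (A := fun _ : Fin M => ℂ) l).tendsto' 0 0 rfl)
      rw [BranchChart.fn, (chartOf (P l)).pt_zero] at h1
      exact h1
    have hj0 : value (P j) f = 0 := (value_eq_zero_iff_ord _ hf0 (by omega)).mpr (by omega)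
    have hk0 : value (P k) f ≠ 0 := fun h => by
      have := (value_eq_zero_iff_ord _ hf0 (by omega)).mp h
      omega
    refine ((((hc j (by omega)).prodMk_nhds (hc k (by omega))).eventually
      ((isOpen_ne_fun continuous_fst continuous_snd).mem_nhds ?_))).mono fun z hz h => ?_
    · show value (P j) f ≠ value (P k) f
      rw [hj0]; exact hk0.symm
    · exact hz (show value (pts P z j) f = value (pts P z k) f by rw [h])
  have : ∀ᶠ z in 𝓝 (0 : Fin M → ℂ), ∀ j k, j ≠ k → pts P z j ≠ pts P z k := by
    refine eventually_all.mpr fun j => eventually_all.mpr fun k => ?_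
    by_cases h : j = k
    · exact Eventually.of_forall fun z h' => absurd h h'
    · exact (key j k h).mono fun z hz _ => hz
  exact this.mono fun z hz j k hjk => by_contra fun hne => hz j k hne hjk

end FLTAgent.Pic0Tors
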