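import Mathlib
import Fermat.Agent.Pic0Tors.Abel.Tuple

/-!
# Moving zeros along a linear system

For `b` spanning a complement of the constants in `L(D)`, the zeros of `1 + lin b s` near the
support of `D` are the coordinates of an implicit function `X s` (`IsMoving`, `exists_isMoving`),
so that the divisors of nearby tuples stay in the class of `D`.
-/

set_option autoImplicit false
set_option linter.unusedSectionVars false
set_option linter.style.haveILetI false

noncomputable section

open AlgebraicCurve Filter Topology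

namespace FLTAgent.Pic0Tors

variable {F : Type} [Field F] [Algebra ℂ F] [FF.IsFF ℂ F]

theorem exists_complement {V : Type} [AddCommGroup V] [Module ℂ V] [FiniteDimensional ℂ V]
    {one : V} (hone : one ≠ 0) :
    ∃ (m : ℕ) (b : Fin m → V), m + 1 = Module.finrank ℂ V ∧
      ∀ (s : Fin m → ℂ) (a : ℂ), ∑ k, s k • b k = a • one → s = 0 := by
  obtain ⟨W, hW⟩ := Submodule.exists_isCompl (ℂ ∙ one)
  let B := Module.finBasis ℂ W
  refine ⟨Module.finrank ℂ W, fun k => (B k : V), ?_, fun s a h => ?_⟩
  · have := Submodule.finrank_add_eq_of_isCompl hW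
    rw [finrank_span_singleton hone] at this
    omega
  · have h0 : ((∑ k, s k • B k : W) : V) = 0 := by
      refine (Submodule.disjoint_def.mp hW.disjoint) _ ?_ (∑ k, s k • B k : W).2
      have e : ((∑ k, s k • B k : W) : V) = a • one := by simpa using h
      rw [e]
      exact Submodule.smul_mem _ a (Submodule.mem_span_singleton_self one)
    exact funext (Fintype.linearIndependent_iff.mp B.linearIndependent s (Subtype.ext h0))

theorem exists_lin_complement {D : Divisor ℂ F} (hD : 0 ≤ D) :
    ∃ (m : ℕ) (b : Fin m → F), m + 1 = FF.ell D ∧ (∀ k, b k ∈ riemannRochSpace D) ∧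
      ∀ (s : Fin m → ℂ) (a : ℂ), ∑ k, algebraMap ℂ F (s k) * b k = algebraMap ℂ F a → s = 0 := by
  have h1 : (1 : F) ∈ riemannRochSpace D := FF.mem_riemannRochSpace_of_ord fun v => by
    have := Finsupp.le_def.mp hD v
    simp only [Finsupp.coe_zero, Pi.zero_apply] at this
    rw [Place.ord_one]
    omega
  have hone : (⟨1, h1⟩ : ↥(riemannRochSpace D)) ≠ 0 :=
    fun h => one_ne_zero (congrArg Subtype.val h)
  haveI : FiniteDimensional ℂ ↥(riemannRochSpace D) := Module.finite_of_finrank_pos (by
    have := FF.ell_mono hD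
    rw [FF.ell_zero] at this
    exact Nat.lt_of_lt_of_le Nat.zero_lt_one this)
  obtain ⟨m, b, hm, hb⟩ := exists_complement hone
  refine ⟨m, fun k => (b k : F), hm, fun k => (b k).2, fun s a h => hb s a (Subtype.ext ?_)⟩
  rw [AddSubmonoidClass.coe_finsetSum]
  simp only [SetLike.val_smul, Algebra.smul_def]
  rw [h, mul_one]

section System

variable {M : ℕ} (P : Fin M → Place ℂ F) (z : Fin M → ℂ) {m : ℕ} (b : Fin m → F)

/-- The element of the linear system with parameter `s`. -/
def lin (s : Fin m → ℂ) : F := ∑ k, algebraMap ℂ F (s k) * b k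

theorem lin_smul (τ : ℂ) (s : Fin m → ℂ) : lin b (τ • s) = algebraMap ℂ F τ * lin b s := by
  simp [lin, Finset.mul_sum, mul_assoc]

/-- The product of a basis function with the local equation of the point. -/
def hfun (j : Fin M) (k : Fin m) : F := ((chartOf (P j)).x - algebraMap ℂ F (z j)) * b k

/-- The linearised local equations. -/
def amat : (Fin m → ℂ) →ₗ[ℂ] (Fin M → ℂ) where
  toFun s j := ∑ k, s k * (chartOf (P j)).fn (hfun P z b j k) (z j)
  map_add' s t := funext fun j => by simp [add_mul, Finset.sum_add_distrib]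
  map_smul' τ s := funext fun j => by simp [Finset.mul_sum, mul_assoc]

/-- The equations of the moving zeros. -/
def sysMap (p : (Fin m → ℂ) × (Fin M → ℂ)) : (Fin m → ℂ) × (Fin M → ℂ) :=
  (p.1, fun j => (p.2 j - z j) + ∑ k, p.1 k * (chartOf (P j)).fn (hfun P z b j k) (p.2 j))

/-- The derivative of `sysMap` at the base point. -/
def sysEquiv : ((Fin m → ℂ) × (Fin M → ℂ)) ≃L[ℂ] ((Fin m → ℂ) × (Fin M → ℂ)) :=
  LinearEquiv.toContinuousLinearEquiv
    { toFun := fun p => (p.1, p.2 + amat P z b p.1)
      invFun := fun p => (p.1, p.2 - amat P z b p.1)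
      map_add' := fun p q => Prod.ext rfl (by simp; abel)
      map_smul' := fun τ p => Prod.ext rfl (by simp)
      left_inv := fun p => Prod.ext rfl (by simp)
      right_inv := fun p => Prod.ext rfl (by simp) }

variable {P z b}

theorem ord_hfun_nonneg (hz : InBalls P z) (hinj : Function.Injective (pts P z))
    (hb : ∀ k, b k ∈ riemannRochSpace (dvs P z)) (j : Fin M) (k : Fin m) :
    0 ≤ (pts P z j).ord (hfun P z b j k) := by
  rcases eq_or_ne (b k) 0 with h | h
  · simp [hfun, h]
  have h1 : (pts P z j).ord ((chartOf (P j)).x - algebraMap ℂ F (z j)) = 1 :=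
    (chartOf (P j)).ord_x_sub (hz j)
  have h2 := FF.ord_of_mem_riemannRochSpace (hb k) h (pts P z j)
  rw [dvs_apply_pts P hinj] at h2
  rw [hfun, (pts P z j).ord_mul ((chartOf (P j)).x_sub_ne_zero _) h, h1]
  omega

theorem eventually_regular (hz : InBalls P z) (hinj : Function.Injective (pts P z))
    (hb : ∀ k, b k ∈ riemannRochSpace (dvs P z)) :
    ∀ᶠ x in 𝓝 z, ∀ j k, 0 ≤ (pts P x j).ord (hfun P z b j k) := by
  refine eventually_all.mpr fun j => eventually_all.mpr fun k => ?_
  rcases eq_or_ne (hfun P z b j k) 0 with h | h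
  · exact Eventually.of_forall fun x => by simp [h]
  have h1 := ((chartOf (P j)).analyticAt_fn (hz j)
    (ord_hfun_nonneg hz hinj hb j k)).eventually_analyticAt
  filter_upwards [((continuous_apply (A := fun _ : Fin M => ℂ) j).tendsto z).eventually h1, eventually_inBalls P hz] with x hx hxb
  have h2 := hx.meromorphicOrderAt_nonneg
  rw [(chartOf (P j)).meromorphicOrderAt_fn h (hxb j)] at h2
  exact_mod_cast h2

theorem hasStrictFDerivAt_sysMap (hz : InBalls P z) (hinj : Function.Injective (pts P z))
    (hb : ∀ k, b k ∈ riemannRochSpace (dvs P z)) :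
    HasStrictFDerivAt (sysMap P z b)
      (sysEquiv P z b : ((Fin m → ℂ) × (Fin M → ℂ)) →L[ℂ] ((Fin m → ℂ) × (Fin M → ℂ)))
      (0, z) := by
  have h1 : HasStrictFDerivAt (fun p : (Fin m → ℂ) × (Fin M → ℂ) => p.1)
      (ContinuousLinearMap.fst ℂ (Fin m → ℂ) (Fin M → ℂ)) (0, z) := hasStrictFDerivAt_fst
  have hc : ∀ k, HasStrictFDerivAt (fun p : (Fin m → ℂ) × (Fin M → ℂ) => p.1 k)
      ((ContinuousLinearMap.proj k).comp (ContinuousLinearMap.fst ℂ (Fin m → ℂ) (Fin M → ℂ)))
      (0, z) := fun k => (hasStrictFDerivAt_apply k _).comp _ h1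
  have hd : ∀ j, HasStrictFDerivAt (fun p : (Fin m → ℂ) × (Fin M → ℂ) => p.2 j)
      ((ContinuousLinearMap.proj j).comp (ContinuousLinearMap.snd ℂ (Fin m → ℂ) (Fin M → ℂ)))
      (0, z) := fun j => HasStrictFDerivAt.comp (g := fun y : Fin M → ℂ => y j) (f := Prod.snd) ((0 : Fin m → ℂ), z)
      (hasStrictFDerivAt_apply j _) hasStrictFDerivAt_snd
  have hj := fun j => ((hd j).sub_const (z j)).add (HasStrictFDerivAt.fun_sum
    (u := Finset.univ) fun k (_ : k ∈ (Finset.univ : Finset (Fin m))) =>
      (hc k).mul ((((chartOf (P j)).analyticAt_fn (hz j)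
        (ord_hfun_nonneg hz hinj hb j k)).hasStrictDerivAt).comp_hasStrictFDerivAt
          ((0 : Fin m → ℂ), z) (hd j)))
  refine (h1.prodMk (hasStrictFDerivAt_pi.mpr hj)).congr_fderiv ?_
  refine ContinuousLinearMap.ext fun p => ?_
  refine Prod.ext rfl (funext fun j => ?_)
  simp [sysEquiv, amat, mul_comm]

/-- What we need about the moving zeros `X s` of `1 + lin b s`. -/
structure IsMoving (P : Fin M → Place ℂ F) (z : Fin M → ℂ) {m : ℕ} (b : Fin m → F)
    (N : Set (Fin M → ℂ)) (X : (Fin m → ℂ) → (Fin M → ℂ)) (σ : ℝ) : Prop where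
  pos : 0 < σ
  at_zero : X 0 = z
  deriv : HasStrictFDerivAt X (-(LinearMap.toContinuousLinearMap (amat P z b))) 0
  cont : ∀ s, ‖s‖ < σ → ContinuousAt X s
  mem : ∀ s, ‖s‖ < σ → X s ∈ N ∧ InBalls P (X s) ∧ Function.Injective (pts P (X s))
  apart : ∀ s, ‖s‖ < σ → ∀ j, X s j ≠ z j → dvs P z (pts P (X s) j) = 0
  eq_iff : ∀ s, ‖s‖ < σ → ∀ j, X s j = z j ↔ amat P z b s j = 0
  divisor : ∀ s, ‖s‖ < σ → 1 + lin b s ≠ 0 ∧
    ∀ v, dvs P z v + v.ord (1 + lin b s) = dvs P (X s) v

/-- The moving zeros exist for small parameters. -/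
theorem exists_isMoving (hz : InBalls P z) (hinj : Function.Injective (pts P z))
    (hev : ∀ᶠ x in 𝓝 z, Function.Injective (pts P x))
    (hb : ∀ k, b k ∈ riemannRochSpace (dvs P z))
    (hconst : ∀ (s : Fin m → ℂ) (a : ℂ), lin b s = algebraMap ℂ F a → s = 0)
    {N : Set (Fin M → ℂ)} (hN : N ∈ 𝓝 z) :
    ∃ X σ, IsMoving P z b N X σ := by
  classical
  have hT := hasStrictFDerivAt_sysMap hz hinj hb
  set T := sysMap P z b with hTdef
  set g := hT.localInverse T (sysEquiv P z b) ((0 : Fin m → ℂ), z) with hg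
  have hT0 : T (0, z) = (0, 0) := Prod.ext rfl (funext fun j => by simp [T, sysMap])
  have hg0 : g (0, 0) = (0, z) := by
    rw [← hT0]; exact hT.eventually_left_inverse.self_of_nhds
  have hgd : HasStrictFDerivAt g
      ((sysEquiv P z b).symm :
        ((Fin m → ℂ) × (Fin M → ℂ)) →L[ℂ] ((Fin m → ℂ) × (Fin M → ℂ))) (0, 0) := by
    have := hT.to_localInverse
    rwa [hT0] at this
  obtain ⟨δ, hδ, hδleft⟩ := Metric.eventually_nhds_iff.mp hT.eventually_left_inverse
  obtain ⟨δ', hδ', hδcond⟩ := Metric.eventually_nhds_iff.mp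
    ((eventually_inBalls P hz).and (hev.and ((eventually_regular hz hinj hb).and
      (eventually_of_mem hN fun x hx => hx))))
  set X : (Fin m → ℂ) → (Fin M → ℂ) := fun s => (g (s, 0)).2 with hX
  have hXd : HasStrictFDerivAt X (-(LinearMap.toContinuousLinearMap (amat P z b))) 0 := by
    have h1 : HasStrictFDerivAt (fun s : Fin m → ℂ => (s, (0 : Fin M → ℂ)))
        ((ContinuousLinearMap.id ℂ _).prod 0) 0 :=
      (hasStrictFDerivAt_id _).prodMk (hasStrictFDerivAt_const _ _)
    refine (HasStrictFDerivAt.comp (f := fun s : Fin m → ℂ => g (s, 0)) 0 hasStrictFDerivAt_snd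
      (HasStrictFDerivAt.comp (f := fun s : Fin m → ℂ => (s, (0 : Fin M → ℂ))) 0 hgd h1)).congr_fderiv ?_
    refine ContinuousLinearMap.ext fun s => ?_
    simp [sysEquiv]
  have hX0 : X 0 = z := by simp only [hX]; rw [hg0]
  have hgc : ∀ᶠ s in 𝓝 (0 : Fin m → ℂ), ContinuousAt X s ∧ T (g (s, 0)) = (s, 0) ∧
      dist (g (s, 0)) ((0 : Fin m → ℂ), z) < min δ δ' := by
    have hpre : Tendsto (fun s : Fin m → ℂ => (s, (0 : Fin M → ℂ))) (𝓝 0) (𝓝 (0, 0)) :=
      (continuous_id.prodMk continuous_const).tendsto' _ _ rfl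
    have h1 : ∀ᶠ q in 𝓝 ((0 : Fin m → ℂ), (0 : Fin M → ℂ)), T (g q) = q := by
      have := hT.eventually_right_inverse
      rwa [hT0] at this
    have h2 : ∀ᶠ q in 𝓝 ((0 : Fin m → ℂ), (0 : Fin M → ℂ)), ContinuousAt g q := by
      have hmem : ((0 : Fin m → ℂ), (0 : Fin M → ℂ)) ∈ (hT.toOpenPartialHomeomorph T).target := by
        rw [← hT0]; exact hT.image_mem_toOpenPartialHomeomorph_target
      filter_upwards [(hT.toOpenPartialHomeomorph T).open_target.mem_nhds hmem] with q hq
      exact (hT.toOpenPartialHomeomorph T).continuousAt_symm hq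
    have h3 : ∀ᶠ q in 𝓝 ((0 : Fin m → ℂ), (0 : Fin M → ℂ)),
        dist (g q) ((0 : Fin m → ℂ), z) < min δ δ' := by
      have h := hgd.continuousAt.tendsto
      rw [hg0] at h
      exact h.eventually (Metric.ball_mem_nhds _ (lt_min hδ hδ'))
    filter_upwards [hpre.eventually (h1.and (h2.and h3))] with s hs
    exact ⟨continuous_snd.continuousAt.comp
      (ContinuousAt.comp (f := fun s : Fin m → ℂ => (s, (0 : Fin M → ℂ))) hs.2.1
        (continuous_id.prodMk continuous_const).continuousAt), hs.1, hs.2.2⟩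
  obtain ⟨σ, hσ, hσs⟩ := Metric.eventually_nhds_iff.mp hgc
  have key : ∀ s, ‖s‖ < σ → ContinuousAt X s ∧ g (s, 0) = (s, X s) ∧
      (∀ j, (X s j - z j) + ∑ k, s k * (chartOf (P j)).fn (hfun P z b j k) (X s j) = 0) ∧
      dist (s, X s) ((0 : Fin m → ℂ), z) < min δ δ' := by
    intro s hs
    obtain ⟨hc, hr, hd⟩ := hσs (show dist s 0 < σ by rwa [dist_zero_right])
    have hfst : (g (s, 0)).1 = s := congrArg Prod.fst hr
    have hpair : g (s, 0) = (s, X s) := Prod.ext hfst rfl
    refine ⟨hc, hpair, fun j => ?_, hpair ▸ hd⟩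
    have := congrFun (congrArg Prod.snd hr) j
    rw [hpair] at this
    exact this
  have cond : ∀ s, ‖s‖ < σ → ∀ x, dist x z ≤ dist (X s) z →
      InBalls P x ∧ Function.Injective (pts P x) ∧
        (∀ j k, 0 ≤ (pts P x j).ord (hfun P z b j k)) ∧ x ∈ N := by
    intro s hs x hx
    refine hδcond (hx.trans_lt (lt_of_le_of_lt ?_ ((key s hs).2.2.2.trans_le (min_le_right _ _))))
    rw [Prod.dist_eq]; exact le_max_right _ _
  have hupd : ∀ s, ‖s‖ < σ → ∀ j, dist (Function.update (X s) j (z j)) z ≤ dist (X s) z ∧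
      dist (Function.update z j (X s j)) z ≤ dist (X s) z := by
    intro s hs j
    constructor <;> refine (dist_pi_le_iff dist_nonneg).mpr fun i => ?_
    · rcases eq_or_ne i j with rfl | h
      · simp
      · rw [Function.update_of_ne h]; exact dist_le_pi_dist _ _ i
    · rcases eq_or_ne i j with rfl | h
      · rw [Function.update_self]; exact dist_le_pi_dist _ _ i
      · rw [Function.update_of_ne h]; simp
  have hapart : ∀ s, ‖s‖ < σ → ∀ j, X s j ≠ z j → dvs P z (pts P (X s) j) = 0 := by
    intro s hs j h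
    obtain ⟨hxb, -, -, -⟩ := cond s hs (X s) le_rfl
    refine dvs_apply_of_ne P fun k hk => ?_
    rcases eq_or_ne k j with rfl | hkj
    · exact h ((chartOf (P k)).pt_injOn (hxb k) (hz k) hk.symm)
    · obtain ⟨-, hi, -, -⟩ := cond s hs (Function.update z j (X s j)) (hupd s hs j).2
      refine hkj (hi ?_)
      simp only [pts, Function.update_self, Function.update_of_ne hkj]
      exact hk
  refine ⟨X, σ, hσ, hX0, hXd, fun s hs => (key s hs).1, fun s hs => ?_, hapart,
    fun s hs j => ?_, fun s hs => ?_⟩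
  · obtain ⟨a, b', -, d⟩ := cond s hs (X s) le_rfl
    exact ⟨d, a, b'⟩
  · have heq := (key s hs).2.2.1 j
    constructor
    · intro h
      rw [h, sub_self, zero_add] at heq
      exact heq
    · intro h
      set x' := Function.update (X s) j (z j) with hx'
      have hTx : T (s, x') = (s, 0) := by
        refine Prod.ext rfl (funext fun i => ?_)
        simp only [T, sysMap, hx']
        rcases eq_or_ne i j with rfl | hij
        · rw [Function.update_self, sub_self, zero_add]
          exact h
        · rw [Function.update_of_ne hij]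
          exact (key s hs).2.2.1 i
      have hdist : dist (s, x') ((0 : Fin m → ℂ), z) < δ := by
        refine lt_of_le_of_lt ?_ ((key s hs).2.2.2.trans_le (min_le_left _ _))
        rw [Prod.dist_eq, Prod.dist_eq]
        exact max_le_max le_rfl (hupd s hs j).1
      have hleft := hδleft hdist
      rw [hTx, ← hg, (key s hs).2.1] at hleft
      have := congrFun (congrArg Prod.snd hleft) j
      simp [hx'] at this
      exact this
  · obtain ⟨hxb, hxinj, hreg, -⟩ := cond s hs (X s) le_rfl
    have hf0 : 1 + lin b s ≠ 0 := by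
      intro h
      have h1 : lin b s = algebraMap ℂ F (-1) := by
        rw [map_neg, map_one]; exact eq_neg_of_add_eq_zero_right h
      have hs0 := hconst s (-1) h1
      simp [hs0, lin] at h
    refine ⟨hf0, ?_⟩
    set f := 1 + lin b s with hf
    have hfL : f ∈ riemannRochSpace (dvs P z) := by
      refine add_mem (FF.mem_riemannRochSpace_of_ord fun v => ?_) (Submodule.sum_mem _ fun k _ => ?_)
      · have := Finsupp.le_def.mp (dvs_nonneg P z) v
        simp only [Finsupp.coe_zero, Pi.zero_apply] at this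
        rw [Place.ord_one]
        omega
      · rw [← Algebra.smul_def]; exact Submodule.smul_mem _ _ (hb k)
    set E : Divisor ℂ F := dvs P z + FF.divisorOf f - dvs P (X s) with hE
    have hone : ∀ j, 1 ≤ dvs P z (pts P (X s) j) + (pts P (X s) j).ord f := by
      intro j
      set c := chartOf (P j) with hc
      set w := pts P (X s) j with hw
      have hem : c.x - algebraMap ℂ F (z j) ∈ w.toValuationSubring :=
        sub_mem ((FF.mem_iff_val_le_one w _).mpr (by
          have := val_evxy_le (c.centred_pt (hxb j)) (Polynomial.C Polynomial.X)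
          rwa [evxy_C, Polynomial.aeval_X] at this)) (w.algebraMap_mem' _)
      have hhm : ∀ k ∈ (Finset.univ : Finset (Fin m)), hfun P z b j k ∈ w.toValuationSubring :=
        fun k _ => mem_of_ord_nonneg w (hreg j k)
      obtain ⟨hsm, hsv⟩ := value_linComb Finset.univ w s (hfun P z b j) hhm
      have hef : (c.x - algebraMap ℂ F (z j)) * f =
          (c.x - algebraMap ℂ F (z j)) + ∑ k, algebraMap ℂ F (s k) * hfun P z b j k := by
        rw [hf, mul_add, mul_one, lin, Finset.mul_sum]
        congr 1
        refine Finset.sum_congr rfl fun k _ => ?_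
        rw [hfun, ← hc]
        ring
      have hxw : value w (c.x - algebraMap ℂ F (z j)) = X s j - z j :=
        value_eq (by
          rw [(algebraMap ℂ F).map_sub, sub_sub_sub_cancel_right]
          exact (c.centred_pt (hxb j)).fst)
      have hv0 : value w ((c.x - algebraMap ℂ F (z j)) * f) = 0 := by
        rw [hef, value_add w hem hsm, hsv, hxw]
        exact (key s hs).2.2.1 j
      have hne : (c.x - algebraMap ℂ F (z j)) * f ≠ 0 := mul_ne_zero (c.x_sub_ne_zero _) hf0
      have hnn : 0 ≤ w.ord ((c.x - algebraMap ℂ F (z j)) * f) :=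
        FF.ord_nonneg_of_mem_placeRing w (hef ▸ add_mem hem hsm)
      have hpos := (value_eq_zero_iff_ord w hne hnn).mp hv0
      rw [w.ord_mul (c.x_sub_ne_zero _) hf0] at hpos
      rcases eq_or_ne (X s j) (z j) with h | h
      · have h1 : w = pts P z j := by rw [hw, pts, pts, h]
        have h2 : w.ord (c.x - algebraMap ℂ F (z j)) = 1 := by
          rw [h1]; exact c.ord_x_sub (hz j)
        rw [h1, dvs_apply_pts P hinj]
        rw [h1] at hpos h2
        omega
      · have hD0 : dvs P z w = 0 := hapart s hs j h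
        have h2 : w.ord (c.x - algebraMap ℂ F (z j)) = 0 := by
          rcases (FF.ord_nonneg_of_mem_placeRing w hem).eq_or_lt with h3 | h3
          · exact h3.symm
          · exact absurd ((value_eq_zero_iff_ord w (c.x_sub_ne_zero _) h3.le).mpr h3)
              (by rw [hxw]; exact sub_ne_zero.mpr h)
        rw [hD0]
        omega
    have hEnn : 0 ≤ E := Finsupp.le_def.mpr fun v => by
      simp only [hE, Finsupp.coe_zero, Pi.zero_apply, Finsupp.sub_apply, Finsupp.add_apply,
        FF.divisorOf_apply]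
      by_cases hv : ∃ j, pts P (X s) j = v
      · obtain ⟨j, rfl⟩ := hv
        rw [dvs_apply_pts P hxinj]
        have := hone j
        omega
      · rw [dvs_apply_of_ne P fun j hj => hv ⟨j, hj⟩]
        have := FF.ord_of_mem_riemannRochSpace hfL hf0 v
        omega
    have hE0 := FF.eq_zero_of_degree_nonpos hEnn (by
      rw [hE, map_sub, map_add, FF.degree_divisorOf, degree_dvs, degree_dvs]
      omega)
    intro v
    have := DFunLike.congr_fun hE0 v
    simp only [hE, Finsupp.sub_apply, Finsupp.add_apply, FF.divisorOf_apply, Finsupp.coe_zero,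
      Pi.zero_apply] at this
    omega

end System

end FLTAgent.Pic0Tors
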