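import Mathlib
import Fermat.Agent.Pic0Tors.Abel.Move
import Fermat.Agent.Pic0Tors.Curve.Pencil

/-!
# The local Abel lemma

`exists_local_abel`: near a non-special tuple, equal Abel–Jacobi images give linearly equivalent
divisors. Idea: along the linear system the Abel–Jacobi map has derivative zero by the residue
theorem for a pencil (`IsMoving.theta_eq`), and by dimension the moving zeros fill the fibre.
-/

set_option autoImplicit false
set_option linter.unusedSectionVars false

noncomputable section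

open AlgebraicCurve Filter Topology

namespace FLTAgent.Pic0Tors

variable {F : Type} [Field F] [Algebra ℂ F] [FF.IsFF ℂ F]
variable {M : ℕ} {P : Fin M → Place ℂ F} {z : Fin M → ℂ} {m : ℕ} {b : Fin m → F}
  {N : Set (Fin M → ℂ)} {X : (Fin m → ℂ) → (Fin M → ℂ)} {σ : ℝ}

theorem hol_holomorphic (i : Fin (genusFF ℂ F)) :
    hol F i = 0 ∨ ∀ w : Place ℂ F, 0 ≤ w.ordDifferential (hol F i) :=
  (hol_mem F i).imp id fun h w => h w

/-- Along the linear system the Abel–Jacobi map has derivative zero. -/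
theorem IsMoving.hasDerivAt_theta_zero (hX : IsMoving P z b N X σ)
    (hinj : Function.Injective (pts P z))
    (hconst : ∀ (s : Fin m → ℂ) (a : ℂ), lin b s = algebraMap ℂ F a → s = 0)
    {s : Fin m → ℂ} (hs0 : s ≠ 0) {τ : ℂ} (hτ : τ ≠ 0) (hsτ : ‖τ • s‖ < σ)
    (i : Fin (genusFF ℂ F)) :
    HasDerivAt (fun t : ℂ => theta P (X (t • s)) i) 0 τ := by
  classical
  set u := lin b s with hu
  have hut : Transcendental ℂ u := by
    by_contra h
    obtain ⟨a, ha⟩ := FF.mem_range_of_not_transcendental h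
    exact hs0 (hconst s a ha.symm)
  have husep : FF.IsSep ℂ u := ⟨hut, FF.finiteDimensional_adjoin_of_transcendental hut,
    FF.isSeparable_adjoin_of_charZero hut⟩
  obtain ⟨q, hq⟩ := FF.exists_eq_smul_D husep (hol F i)
  set a := amat P z b s with ha
  have hopen : ∀ᶠ t in 𝓝 τ, t ≠ 0 ∧ ‖t • s‖ < σ :=
    (eventually_ne_nhds hτ).and (((continuous_id.smul continuous_const).norm.continuousAt).eventually
      (gt_mem_nhds hsτ))
  have hcont : ContinuousAt (fun t : ℂ => X (t • s)) τ :=
    ContinuousAt.comp (f := fun t : ℂ => t • s) (hX.cont _ hsτ)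
      (continuous_id.smul continuous_const).continuousAt
  -- data at a nearby parameter
  have hdata : ∀ t : ℂ, t ≠ 0 → ‖t • s‖ < σ → ∀ j,
      (a j = 0 → X (t • s) j = z j) ∧
      (a j ≠ 0 → (pts P (X (t • s)) j).ord (u - algebraMap ℂ F (-t⁻¹)) = 1) := by
    intro t ht hts j
    have hiff := hX.eq_iff _ hts j
    rw [map_smul, Pi.smul_apply, smul_eq_mul, mul_eq_zero, or_iff_right ht] at hiff
    refine ⟨hiff.mpr, fun haj => ?_⟩
    obtain ⟨hf0, hdiv⟩ := hX.divisor _ hts
    obtain ⟨-, hxb, hxi⟩ := hX.mem _ hts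
    have hne : X (t • s) j ≠ z j := fun h => haj (hiff.mp h)
    have h1 := hdiv (pts P (X (t • s)) j)
    rw [dvs_apply_pts P hxi] at h1
    have hD : dvs P z (pts P (X (t • s)) j) = 0 := hX.apart _ hts j hne
    rw [hD, zero_add, lin_smul] at h1
    have e : 1 + algebraMap ℂ F t * lin b s = algebraMap ℂ F t * (u - algebraMap ℂ F (-t⁻¹)) := by
      rw [mul_sub, ← map_mul, mul_neg, mul_inv_cancel₀ ht, map_neg, map_one, sub_neg_eq_add,
        add_comm]
    rw [lin_smul, e] at hf0
    rw [e, Place.ord_mul _ ((map_ne_zero _).mpr ht) (right_ne_zero_of_mul hf0), FF.ord_algebraMap,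
      zero_add] at h1
    exact h1
  obtain ⟨-, hxb, hxi⟩ := hX.mem _ hsτ
  -- derivatives of the moving points
  have hterm : ∀ j, HasDerivAt (fun t : ℂ => prim (P j) i (X (t • s) j))
      (if a j = 0 then 0 else (τ ^ 2)⁻¹ * value (pts P (X (τ • s)) j) q) τ := by
    intro j
    split_ifs with haj
    · refine (hasDerivAt_const τ (prim (P j) i (z j))).congr_of_eventuallyEq ?_
      filter_upwards [hopen] with t ht
      rw [(hdata t ht.1 ht.2 j).1 haj]
    · set c := chartOf (P j) with hc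
      set w := pts P (X (τ • s)) j with hw
      have hord : w.ord (u - algebraMap ℂ F (-τ⁻¹)) = 1 := (hdata τ hτ hsτ j).2 haj
      have hd := FF.ordDifferential_D_of_ord_sub_cast_ne_zero w (f := u) (c := -τ⁻¹)
        (by rw [hord]; norm_num)
      have hum : u ∈ w.toValuationSubring := by
        have := add_mem (mem_of_ord_nonneg w (by omega : 0 ≤ w.ord (u - algebraMap ℂ F (-τ⁻¹))))
          (w.algebraMap_mem' (-τ⁻¹))
        simpa using this
      have hg0 : c.coef (KaehlerDifferential.D ℂ F u) ≠ 0 := c.coef_ne_zero hd.1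
      have hgord : w.ord (c.coef (KaehlerDifferential.D ℂ F u)) = 0 :=
        (c.ord_coef hd.1 (hxb j)).trans (hd.2.trans (by rw [hord]; norm_num))
      have hgv : value w (c.coef (KaehlerDifferential.D ℂ F u)) ≠ 0 := fun h => by
        have := (value_eq_zero_iff_ord w hg0 hgord.ge).mp h
        omega
      have huval : ∀ t : ℂ, t ≠ 0 → ‖t • s‖ < σ → c.fn u (X (t • s) j) = -t⁻¹ := by
        intro t ht hts
        have h1 : (c.pt (X (t • s) j)).ord (u - algebraMap ℂ F (-t⁻¹)) = 1 := (hdata t ht hts j).2 haj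
        refine value_eq ?_
        rw [FF.val_eq_exp _ (fun h => by rw [h, Place.ord_zero] at h1; exact zero_ne_one h1), h1,
          ← WithZero.exp_zero, WithZero.exp_lt_exp]
        norm_num
      have hfd : HasDerivAt (c.fn u) (value w (c.coef (KaehlerDifferential.D ℂ F u)))
          (X (τ • s) j) :=
        c.hasDerivAt_fn (c.coef_spec _) (hxb j) hum
      have hne : c.fn u (X (τ • s) j) ≠ 0 := by
        rw [huval τ hτ hsτ]; simp [hτ]
      have hinvd := (hfd.inv hne).neg
      have hXd : HasDerivAt (fun t : ℂ => X (t • s) j)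
          ((τ ^ 2 * value w (c.coef (KaehlerDifferential.D ℂ F u))))⁻¹ τ := by
        refine HasDerivAt.of_local_left_inverse (f := fun x => -(c.fn u x)⁻¹)
          (ContinuousAt.comp (f := fun t : ℂ => X (t • s)) (continuous_apply j).continuousAt hcont)
          (hinvd.congr_deriv ?_) (mul_ne_zero (pow_ne_zero 2 hτ) hgv) ?_
        · rw [huval τ hτ hsτ]
          field_simp
        · filter_upwards [hopen] with t ht
          rw [huval t ht.1 ht.2, inv_neg, inv_inv, neg_neg]
      have hcomp := (hasDerivAt_prim (P j) i (hxb j)).comp τ hXd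
      refine hcomp.congr_deriv ?_
      have hcoef : c.coef (hol F i) = q * c.coef (KaehlerDifferential.D ℂ F u) := by
        refine c.coef_eq ?_
        rw [mul_smul, ← c.coef_spec, ← hq]
      have hqm : q ∈ w.toValuationSubring := by
        have h1 : c.coef (hol F i) ∈ w.toValuationSubring :=
          mem_of_ord_nonneg w (c.ord_coef_nonneg (hol_mem F i) (hxb j))
        have h2 : (c.coef (KaehlerDifferential.D ℂ F u))⁻¹ ∈ w.toValuationSubring :=
          mem_of_ord_nonneg w (by rw [Place.ord_inv]; omega)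
        have := mul_mem h1 h2
        rwa [hcoef, mul_assoc, mul_inv_cancel₀ hg0, mul_one] at this
      show value w (c.coef (hol F i)) * _ = _
      rw [hcoef, value_mul w hqm (mem_of_ord_nonneg w hgord.ge)]
      field_simp
  have hsum := HasDerivAt.fun_sum (u := Finset.univ) fun j _ => hterm j
  refine hsum.congr_deriv ?_
  rw [Finset.sum_ite, Finset.sum_const_zero, zero_add, ← Finset.mul_sum]
  refine mul_eq_zero_of_right _ ?_
  rw [← Finset.sum_image (f := fun v => value v q) fun j _ k _ h => hxi h]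
  refine sum_value_eq_zero (hol F i) (hol_holomorphic i) u hut q hq (-τ⁻¹) _ (fun v => ?_)
    (fun v hv => ?_)
  · simp only [Finset.mem_image, Finset.mem_filter, Finset.mem_univ, true_and]
    constructor
    · rintro ⟨j, hj, rfl⟩
      rw [(hdata τ hτ hsτ j).2 hj]; exact one_pos
    · intro hv
      obtain ⟨hf0, hdiv⟩ := hX.divisor _ hsτ
      have he : 1 + lin b (τ • s) = algebraMap ℂ F τ * (u - algebraMap ℂ F (-τ⁻¹)) := by
        rw [lin_smul, mul_sub, ← map_mul, mul_neg, mul_inv_cancel₀ hτ, map_neg, map_one,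
          sub_neg_eq_add, add_comm]
      have h1 := hdiv v
      have hu0 : u - algebraMap ℂ F (-τ⁻¹) ≠ 0 := fun h => by
        rw [h, Place.ord_zero] at hv
        exact lt_irrefl _ hv
      rw [he, Place.ord_mul _ ((map_ne_zero _).mpr hτ) hu0, FF.ord_algebraMap, zero_add] at h1
      have h2 := Finsupp.le_def.mp (dvs_nonneg P z) v
      simp only [Finsupp.coe_zero, Pi.zero_apply] at h2
      obtain ⟨j, hj⟩ : ∃ j, pts P (X (τ • s)) j = v := by
        by_contra hcon
        rw [dvs_apply_of_ne P (v := v) fun j hj => hcon ⟨j, hj⟩] at h1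
        omega
      refine ⟨j, fun haj => ?_, hj⟩
      have hxz : pts P (X (τ • s)) j = pts P z j := by
        rw [pts, pts, (hdata τ hτ hsτ j).1 haj]
      rw [← hj, dvs_apply_pts P hxi, hxz, dvs_apply_pts P hinj, ← hxz, hj] at h1
      omega
  · simp only [Finset.mem_image, Finset.mem_filter, Finset.mem_univ, true_and] at hv
    obtain ⟨j, hj, rfl⟩ := hv
    exact (hdata τ hτ hsτ j).2 hj

/-- Along the linear system the Abel–Jacobi map is constant. -/
theorem IsMoving.theta_eq (hX : IsMoving P z b N X σ) (hinj : Function.Injective (pts P z))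
    (hconst : ∀ (s : Fin m → ℂ) (a : ℂ), lin b s = algebraMap ℂ F a → s = 0)
    (s : Fin m → ℂ) (hs : ‖s‖ < σ) : theta P (X s) = theta P z := by
  rcases eq_or_ne s 0 with rfl | hs0
  · rw [hX.at_zero]
  funext i
  have hlt : ∀ t : ℝ, t ∈ Set.Icc (0 : ℝ) 1 → ‖(t : ℂ) • s‖ < σ := fun t ht => by
    rw [norm_smul, Complex.norm_real, Real.norm_eq_abs, abs_of_nonneg ht.1]
    exact (mul_le_of_le_one_left (norm_nonneg s) ht.2).trans_lt hs
  have hcont : ContinuousOn (fun t : ℝ => theta P (X ((t : ℂ) • s)) i) (Set.Icc 0 1) := by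
    intro t ht
    refine ContinuousAt.continuousWithinAt ?_
    have h1 : ContinuousAt (fun t : ℝ => X ((t : ℂ) • s)) t :=
      ContinuousAt.comp (f := fun t : ℝ => (t : ℂ) • s) (hX.cont _ (hlt t ht))
        (Complex.continuous_ofReal.smul continuous_const).continuousAt
    have h2 : ContinuousAt (fun x : Fin M → ℂ => theta P x i) (X ((t : ℂ) • s)) :=
      (continuous_apply i).continuousAt.comp
        (hasStrictFDerivAt_theta P (hX.mem _ (hlt t ht)).2.1).continuousAt
    exact ContinuousAt.comp (f := fun t : ℝ => X ((t : ℂ) • s)) h2 h1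
  have key : ∀ ε : ℝ, 0 < ε → ε ≤ 1 → theta P (X ((1 : ℂ) • s)) i =
      theta P (X ((ε : ℂ) • s)) i := by
    intro ε hε hε1
    have h := constant_of_has_deriv_right_zero
      (hcont.mono (Set.Icc_subset_Icc hε.le le_rfl)) (fun t ht =>
        ((hX.hasDerivAt_theta_zero hinj hconst hs0
          (τ := (t : ℂ)) (Complex.ofReal_ne_zero.mpr (hε.trans_le ht.1).ne')
          (hlt t ⟨(hε.trans_le ht.1).le, ht.2.le⟩) i).comp_ofReal).hasDerivWithinAt)
      1 (Set.right_mem_Icc.mpr hε1)
    simpa using h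
  have hlim : Tendsto (fun ε : ℝ => theta P (X ((ε : ℂ) • s)) i) (𝓝[>] (0 : ℝ))
      (𝓝 (theta P (X (((0 : ℝ) : ℂ) • s)) i)) :=
    ((hcont 0 (Set.left_mem_Icc.mpr zero_le_one)).mono_of_mem_nhdsWithin
      (Icc_mem_nhdsGT zero_lt_one)).tendsto
  have heq : (fun _ : ℝ => theta P (X ((1 : ℂ) • s)) i) =ᶠ[𝓝[>] (0 : ℝ)]
      fun ε : ℝ => theta P (X ((ε : ℂ) • s)) i := by
    filter_upwards [Ioc_mem_nhdsGT (zero_lt_one' ℝ)] with ε hε
    exact key ε hε.1 hε.2
  have h := tendsto_nhds_unique (tendsto_const_nhds.congr' heq) hlim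
  rwa [one_smul, Complex.ofReal_zero, zero_smul, hX.at_zero] at h

/-- All nearby points of the fibre of `theta` carry linearly equivalent divisors. -/
theorem eventually_exists_cls_eq (hz : InBalls P z) (hinj : Function.Injective (pts P z))
    (hev : ∀ᶠ x in 𝓝 z, Function.Injective (pts P x)) {n : ℕ}
    (π : (Fin M → ℂ) →L[ℂ] (Fin n → ℂ))
    (hbij : Function.Bijective ((dTheta P z).prod π)) (hN : N ∈ 𝓝 z) :
    ∀ᶠ k in 𝓝 (π z), ∃ x ∈ N, theta P x = theta P z ∧ π x = k ∧
      cls F (dvs P x) = cls F (dvs P z) := by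
  have hsurj : Function.Surjective (dTheta P z) := fun y => by
    obtain ⟨x, hx⟩ := hbij.2 (y, 0)
    exact ⟨x, congrArg Prod.fst hx⟩
  have hh1 := hOne_eq_zero_of_surjective P hz hinj hsurj
  have hrr := FF.riemann_roch (dvs P z)
  rw [hh1, degree_dvs] at hrr
  obtain ⟨m', b', hm, hb, hconst⟩ := exists_lin_complement (dvs_nonneg P z)
  obtain ⟨X', σ', hX⟩ := exists_isMoving hz hinj hev hb hconst hN
  have hdim : genusFF ℂ F + n = M := by
    have := (LinearEquiv.ofBijective
      ((dTheta P z).prod π).toLinearMap hbij).finrank_eq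
    rw [Module.finrank_prod, Module.finrank_fin_fun, Module.finrank_fin_fun,
      Module.finrank_fin_fun] at this
    omega
  have hm' : m' = n := by omega
  subst hm'
  have hdX := hX.deriv
  have hball : Metric.ball (0 : Fin m' → ℂ) σ' ∈ 𝓝 (0 : Fin m' → ℂ) :=
    Metric.ball_mem_nhds _ hX.pos
  have hzero : (dTheta P z).comp (-(LinearMap.toContinuousLinearMap (amat P z b'))) = 0 := by
    have h1 : HasStrictFDerivAt (fun s => theta P (X' s))
        ((dTheta P z).comp (-(LinearMap.toContinuousLinearMap (amat P z b')))) 0 :=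
      HasStrictFDerivAt.comp (f := X') 0 (by rw [hX.at_zero]; exact hasStrictFDerivAt_theta P hz) hdX
    refine h1.hasFDerivAt.unique ((hasFDerivAt_const (theta P z) 0).congr_of_eventuallyEq ?_)
    filter_upwards [hball] with s hs
    exact hX.theta_eq hinj hconst s (by simpa using hs)
  have hAinj : Function.Injective (amat P z b') := by
    rw [← LinearMap.ker_eq_bot, LinearMap.ker_eq_bot']
    intro s hs
    have hsmall : ∀ᶠ t in 𝓝[≠] (0 : ℂ), ‖t • s‖ < σ' ∧ t ≠ 0 :=
      ((((continuous_id.smul continuous_const).norm).tendsto' 0 0 (by simp)).eventually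
        (gt_mem_nhds hX.pos)).filter_mono nhdsWithin_le_nhds |>.and self_mem_nhdsWithin
    obtain ⟨t, ht, ht0⟩ := hsmall.exists
    obtain ⟨hf0, hdiv⟩ := hX.divisor _ ht
    have hXz : X' (t • s) = z := funext fun j => (hX.eq_iff _ ht j).mpr (by simp [map_smul, hs])
    have hc : lin b' (t • s) ∈ (algebraMap ℂ F).range := by
      have : 1 + lin b' (t • s) ∈ (algebraMap ℂ F).range :=
        FF.mem_range_of_forall_ord_nonneg fun v => by
          have := hdiv v
          rw [hXz] at this
          omega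
      simpa using sub_mem this (one_mem _)
    obtain ⟨a, ha⟩ := hc
    exact (smul_eq_zero.mp (hconst _ a ha.symm)).resolve_left ht0
  set A := -(LinearMap.toContinuousLinearMap (amat P z b')) with hA
  have hd2 : HasStrictFDerivAt (fun s => π (X' s)) (π.comp A) 0 :=
    HasStrictFDerivAt.comp (f := X') 0 π.hasStrictFDerivAt hdX
  have hrange : (π.comp A).range = ⊤ := by
    refine LinearMap.range_eq_top.mpr (LinearMap.injective_iff_surjective.mp ?_)
    rw [← LinearMap.ker_eq_bot, LinearMap.ker_eq_bot']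
    intro s hs
    have h1 : (dTheta P z).prod π (A s) = (dTheta P z).prod π 0 := by
      rw [map_zero]
      exact Prod.ext (DFunLike.congr_fun hzero s) hs
    have h2 := hbij.1 h1
    rw [hA] at h2
    simp at h2
    exact hAinj (by rw [h2, map_zero])
  have hmap := hd2.map_nhds_eq_of_surj hrange
  rw [hX.at_zero] at hmap
  rw [← hmap, eventually_map]
  filter_upwards [hball] with s hs
  have hs' : ‖s‖ < σ' := by simpa using hs
  refine ⟨X' s, (hX.mem s hs').1, hX.theta_eq hinj hconst s hs', rfl, ?_⟩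
  obtain ⟨hf0, hdiv⟩ := hX.divisor s hs'
  refine cls_eq_of_isPrincipal_sub ⟨1 + lin b' s, hf0, fun v => ?_⟩
  have := hdiv v
  rw [Finsupp.sub_apply]
  omega

/-- The local Abel lemma. -/
theorem exists_local_abel (P : Fin M → Place ℂ F) (hP : Function.Injective P)
    (h1 : FF.hOne (∑ j, Finsupp.single (P j) 1) = 0) :
    ∃ ρ : ℝ, 0 < ρ ∧ (∀ x : Fin M → ℂ, ‖x‖ < ρ → InBalls P x ∧ Function.Injective (pts P x)) ∧
      ∀ x y : Fin M → ℂ, ‖x‖ < ρ → ‖y‖ < ρ → theta P x = theta P y →
        cls F (dvs P x) = cls F (dvs P y) := by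
  classical
  have hs0 := surjective_of_hOne_eq_zero P hP h1
  set L : (Fin M → ℂ) →ₗ[ℂ] (Fin (genusFF ℂ F) → ℂ) := (dTheta P 0).toLinearMap with hL
  obtain ⟨pl, hpl⟩ := L.ker.subtype.exists_leftInverse_of_injective L.ker.ker_subtype
  set B := Module.finBasis ℂ L.ker with hB
  set π : (Fin M → ℂ) →L[ℂ] (Fin (Module.finrank ℂ L.ker) → ℂ) :=
    LinearMap.toContinuousLinearMap (B.equivFun.toLinearMap ∘ₗ pl) with hπ
  have hplk : ∀ k : L.ker, pl (k : Fin M → ℂ) = k := fun k => DFunLike.congr_fun hpl k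
  have hbij : Function.Bijective ((dTheta P 0).prod π) := by
    constructor
    · rw [injective_iff_map_eq_zero]
      intro x hx
      have hx1 : x ∈ L.ker := congrArg Prod.fst hx
      have hx2 : B.equivFun (pl x) = 0 := congrArg Prod.snd hx
      rw [LinearEquiv.map_eq_zero_iff, hplk ⟨x, hx1⟩] at hx2
      exact congrArg Subtype.val hx2
    · rintro ⟨y, k⟩
      obtain ⟨x, hx⟩ := hs0 y
      refine ⟨x + ((B.equivFun.symm k - pl x : L.ker) : Fin M → ℂ), Prod.ext ?_ ?_⟩
      · show dTheta P 0 _ = y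
        rw [map_add, hx, show dTheta P 0 ((B.equivFun.symm k - pl x : L.ker) : Fin M → ℂ) = 0
          from (B.equivFun.symm k - pl x : L.ker).2, add_zero]
      · show B.equivFun (pl _) = k
        rw [map_add, hplk, add_sub_cancel, LinearEquiv.apply_symm_apply]
  set e := (LinearEquiv.ofBijective
    ((dTheta P 0).prod π).toLinearMap hbij).toContinuousLinearEquiv with he
  have hΦ : HasStrictFDerivAt (fun x => (theta P x, π x))
      (e : (Fin M → ℂ) →L[ℂ] (Fin (genusFF ℂ F) → ℂ) × (Fin (Module.finrank ℂ L.ker) → ℂ)) 0 :=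
    ((hasStrictFDerivAt_theta P (inBalls_zero P)).prodMk π.hasStrictFDerivAt).congr_fderiv
      (ContinuousLinearMap.ext fun _ => rfl)
  set H := hΦ.toOpenPartialHomeomorph _ with hH
  have hHcoe : ∀ x, H x = (theta P x, π x) := fun x => rfl
  have hbijev : ∀ᶠ x in 𝓝 (0 : Fin M → ℂ), Function.Bijective ((dTheta P x).prod π) := by
    have hc : ContinuousAt (fun x => (dTheta P x).prod π) 0 := by
      have h := continuousAt_dTheta P (inBalls_zero P)
      have e1 : (fun x => (dTheta P x).prod π) = fun x =>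
          (ContinuousLinearMap.inl ℂ _ _).comp (dTheta P x) +
            (ContinuousLinearMap.inr ℂ _ _).comp π := by
        funext x
        ext d <;> simp
      rw [e1]
      exact ((continuous_const.clm_comp continuous_id).continuousAt.comp h).add continuousAt_const
    have hmem : Set.range ((↑) : ((Fin M → ℂ) ≃L[ℂ] (Fin (genusFF ℂ F) → ℂ) ×
        (Fin (Module.finrank ℂ L.ker) → ℂ)) → _) ∈ 𝓝 ((dTheta P 0).prod π) :=
      ContinuousLinearEquiv.isOpen.mem_nhds ⟨e, ContinuousLinearMap.ext fun _ => rfl⟩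
    filter_upwards [hc.preimage_mem_nhds hmem] with x hx
    obtain ⟨e', he'⟩ := hx
    rw [← show (e' : (Fin M → ℂ) →L[ℂ] _) = (dTheta P x).prod π from he']
    exact e'.bijective
  obtain ⟨ρ0, hρ0, hρ0c⟩ := Metric.eventually_nhds_iff.mp
    ((eventually_inBalls P (inBalls_zero P)).and
      ((eventually_injective_pts P hP).and hbijev))
  set N0 := H.source ∩ Metric.ball 0 ρ0 with hN0
  have hN0open : IsOpen N0 := H.open_source.inter Metric.isOpen_ball
  have hN00 : (0 : Fin M → ℂ) ∈ N0 :=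
    ⟨hΦ.mem_toOpenPartialHomeomorph_source, Metric.mem_ball_self hρ0⟩
  have himg : IsOpen (H '' N0) := H.isOpen_image_of_subset_source hN0open Set.inter_subset_left
  have h00 : H 0 = (0, 0) := by rw [hHcoe, theta_zero, map_zero]
  obtain ⟨η, hη, hηsub⟩ := Metric.isOpen_iff.mp himg _ (Set.mem_image_of_mem H hN00)
  rw [h00] at hηsub
  obtain ⟨ρ, hρ, hρsub⟩ := Metric.isOpen_iff.mp
    (H.continuousOn.isOpen_inter_preimage H.open_source (Metric.isOpen_ball (x := (0, 0)) (ε := η)))
    0 ⟨hΦ.mem_toOpenPartialHomeomorph_source, by rw [Set.mem_preimage, h00]; exact Metric.mem_ball_self hη⟩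
  refine ⟨min ρ ρ0, lt_min hρ hρ0, fun x hx => ?_, fun x y hx hy hxy => ?_⟩
  · obtain ⟨a, b', -⟩ := hρ0c (show dist x 0 < ρ0 by
      rw [dist_zero_right]; exact hx.trans_le (min_le_right _ _))
    exact ⟨a, b'⟩
  have hin : ∀ w : Fin M → ℂ, ‖w‖ < min ρ ρ0 → w ∈ N0 ∧ ‖theta P w‖ < η ∧ ‖π w‖ < η := by
    intro w hw
    have h1 := hρsub (show w ∈ Metric.ball 0 ρ by
      rw [mem_ball_zero_iff]; exact hw.trans_le (min_le_left _ _))
    have h2 := h1.2
    rw [Set.mem_preimage, hHcoe, show ((0 : Fin (genusFF ℂ F) → ℂ),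
      (0 : Fin (Module.finrank ℂ L.ker) → ℂ)) = 0 from rfl, mem_ball_zero_iff, Prod.norm_def,
      max_lt_iff] at h2
    exact ⟨⟨h1.1, by rw [mem_ball_zero_iff]; exact hw.trans_le (min_le_right _ _)⟩, h2⟩
  obtain ⟨hxN, hxθ, hxπ⟩ := hin x hx
  obtain ⟨hyN, -, hyπ⟩ := hin y hy
  set θ := theta P x with hθ
  let zk : (Fin (Module.finrank ℂ L.ker) → ℂ) → (Fin M → ℂ) := fun k => H.symm (θ, k)
  have hzk : ∀ k ∈ Metric.ball (0 : Fin (Module.finrank ℂ L.ker) → ℂ) η,
      zk k ∈ N0 ∧ theta P (zk k) = θ ∧ π (zk k) = k := by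
    intro k hk
    obtain ⟨w, hwN, hwe⟩ := hηsub (show (θ, k) ∈ Metric.ball (0, 0) η by
      rw [show ((0 : Fin (genusFF ℂ F) → ℂ), (0 : Fin (Module.finrank ℂ L.ker) → ℂ)) = 0 from rfl,
        mem_ball_zero_iff, Prod.norm_def, max_lt_iff]
      exact ⟨hxθ, mem_ball_zero_iff.mp hk⟩)
    have : zk k = w := by
      show H.symm (θ, k) = w
      rw [← hwe, H.left_inv hwN.1]
    rw [hHcoe, Prod.mk.injEq] at hwe
    rw [this]
    exact ⟨hwN, hwe⟩
  have : PreconnectedSpace (Metric.ball (0 : Fin (Module.finrank ℂ L.ker) → ℂ) η) :=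
    Subtype.preconnectedSpace Metric.isPreconnected_ball
  have hlc : IsLocallyConstant
      fun k : Metric.ball (0 : Fin (Module.finrank ℂ L.ker) → ℂ) η => cls F (dvs P (zk k)) := by
    rw [IsLocallyConstant.iff_eventually_eq]
    rintro ⟨k, hk⟩
    obtain ⟨hkN, hkθ, hkπ⟩ := hzk k hk
    obtain ⟨hb0, hi0, hbj⟩ := hρ0c (show dist (zk k) 0 < ρ0 from hkN.2)
    have hev : ∀ᶠ w in 𝓝 (zk k), Function.Injective (pts P w) := by
      filter_upwards [Metric.isOpen_ball.mem_nhds hkN.2] with w hw
      exact (hρ0c hw).2.1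
    have h := eventually_exists_cls_eq hb0 hi0 hev π hbj (hN0open.mem_nhds hkN)
    rw [hkπ] at h
    filter_upwards [continuous_subtype_val.continuousAt.eventually h] with k' hk'
    obtain ⟨w, hwN, hwθ, hwπ, hwcls⟩ := hk'
    have : zk (k' : Fin (Module.finrank ℂ L.ker) → ℂ) = w := by
      show H.symm (θ, _) = w
      rw [← hkθ, ← hwθ, ← hwπ, ← hHcoe, H.left_inv hwN.1]
    show cls F (dvs P (zk (k' : Fin (Module.finrank ℂ L.ker) → ℂ))) = _
    rw [this, hwcls]
  have hrec : ∀ w ∈ N0, theta P w = θ → zk (π w) = w := fun w hw hwθ => by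
    show H.symm (θ, π w) = w
    rw [← hwθ, ← hHcoe, H.left_inv hw.1]
  have h := hlc.apply_eq_of_preconnectedSpace ⟨π x, mem_ball_zero_iff.mpr hxπ⟩
    ⟨π y, mem_ball_zero_iff.mpr hyπ⟩
  simp only at h
  rwa [hrec x hxN rfl, hrec y hyN hxy.symm] at h

end FLTAgent.Pic0Tors
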