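import Mathlib
import Fermat.Agent.Pic0Tors.Abel.Local
import Fermat.Agent.Pic0Tors.Curve.Compact

/-!
# The exponential map `ℂ^g → Pic⁰`

`exists_exponential`: `Pic⁰` of a complex function field is the image of a homomorphism from `ℂ^g`
with discrete kernel and a bounded set of representatives. The local inverse of the Abel–Jacobi
map at a non-special tuple (`expAt`) is additive near zero, hence extends to a homomorphism;
surjectivity comes from connectedness and boundedness from compactness of the places. No periods,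
path integrals or Hodge theory are used.
-/

set_option autoImplicit false
set_option linter.unusedSectionVars false
set_option linter.style.haveILetI false

noncomputable section

open AlgebraicCurve Filter Topology

namespace FLTAgent.Pic0Tors

variable {F : Type} [Field F] [Algebra ℂ F] [FF.IsFF ℂ F]

/-- A homomorphism extending a map that is additive near zero. -/
theorem exists_addHom_of_locally_additive {g : ℕ} {A : Type} [AddCommGroup A]
    (e : (Fin g → ℂ) → A) {δ : ℝ} (hδ : 0 < δ)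
    (hadd : ∀ v w : Fin g → ℂ, ‖v‖ < δ → ‖w‖ < δ → ‖v + w‖ < δ → e (v + w) = e v + e w) :
    ∃ E : (Fin g → ℂ) →+ A, ∀ v, ‖v‖ < δ → E v = e v := by
  have he0 : e 0 = 0 := by
    have := hadd 0 0 (by simpa using hδ) (by simpa using hδ) (by simpa using hδ)
    simpa using this
  have hmul : ∀ (k : ℕ) (u : Fin g → ℂ), (∀ i ≤ k, ‖(i : ℂ) • u‖ < δ) →
      e ((k : ℂ) • u) = k • e u := by
    intro k u
    induction k with
    | zero => intro _; simp [he0]
    | succ k ih =>
      intro h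
      have h1 := h 1 (by omega)
      rw [Nat.cast_one, one_smul] at h1
      have h2 := h (k + 1) le_rfl
      push_cast at h2 ⊢
      rw [add_smul, one_smul] at h2 ⊢
      rw [hadd _ _ (h k (by omega)) h1 h2, ih fun i hi => h i (by omega), succ_nsmul]
  have hle : ∀ {n k : ℕ} {v : Fin g → ℂ}, k ≤ n → ‖v‖ < δ → 0 < n →
      ‖(k : ℂ) • ((n : ℂ)⁻¹ • v)‖ < δ := by
    intro n k v hk hv hn
    rw [smul_smul, norm_smul, norm_mul, norm_inv, Complex.norm_natCast, Complex.norm_natCast]
    refine lt_of_le_of_lt (mul_le_of_le_one_left (norm_nonneg v) ?_) hv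
    rw [← div_eq_mul_inv, div_le_one (by exact_mod_cast hn)]
    exact_mod_cast hk
  let N : (Fin g → ℂ) → ℕ := fun v => ⌈‖v‖ / δ⌉₊ + 1
  have hN : ∀ (v : Fin g → ℂ) (n : ℕ), N v ≤ n → ‖(n : ℂ)⁻¹ • v‖ < δ := by
    intro v n hn
    have hn0 : (0 : ℝ) < n := by
      exact_mod_cast lt_of_lt_of_le (Nat.succ_pos _) hn
    rw [norm_smul, norm_inv, Complex.norm_natCast, inv_mul_lt_iff₀ hn0, ← div_lt_iff₀ hδ]
    refine (Nat.le_ceil _).trans_lt ?_
    exact_mod_cast lt_of_lt_of_le (Nat.lt_succ_self _) hn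
  -- independence of the subdivision
  have hind : ∀ (v : Fin g → ℂ) (n k : ℕ), 0 < k → 0 < n → ‖(n : ℂ)⁻¹ • v‖ < δ →
      n • e ((n : ℂ)⁻¹ • v) = (n * k) • e (((n * k : ℕ) : ℂ)⁻¹ • v) := by
    intro v n k hk hn h
    have e1 : (n : ℂ)⁻¹ • v = (k : ℂ) • (((n * k : ℕ) : ℂ)⁻¹ • v) := by
      rw [smul_smul, Nat.cast_mul, mul_inv, mul_left_comm,
        mul_inv_cancel₀ (Nat.cast_ne_zero.mpr hk.ne'), mul_one]
    have e2 : ((n * k : ℕ) : ℂ)⁻¹ • v = (k : ℂ)⁻¹ • ((n : ℂ)⁻¹ • v) := by
      rw [smul_smul, Nat.cast_mul, mul_inv, mul_comm]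
    rw [e1, hmul k _ (fun i hi => by rw [e2]; exact hle hi h hk), mul_comm n k, mul_nsmul]
  let E0 : (Fin g → ℂ) → A := fun v => N v • e ((N v : ℂ)⁻¹ • v)
  have hE0 : ∀ (v : Fin g → ℂ) (n : ℕ), 0 < n → ‖(n : ℂ)⁻¹ • v‖ < δ →
      E0 v = n • e ((n : ℂ)⁻¹ • v) := by
    intro v n hn h
    show N v • e ((N v : ℂ)⁻¹ • v) = _
    rw [hind v (N v) n hn (Nat.succ_pos _) (hN v _ le_rfl), hind v n (N v) (Nat.succ_pos _) hn h,
      mul_comm (N v) n]
  refine ⟨AddMonoidHom.mk' E0 fun v w => ?_, fun v hv => ?_⟩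
  · set n := N v + N w + N (v + w) with hn
    have hn0 : 0 < n := by have : 0 < N v := Nat.succ_pos _; omega
    rw [hE0 v n hn0 (hN v n (by omega)), hE0 w n hn0 (hN w n (by omega)),
      hE0 (v + w) n hn0 (hN _ n (by omega)), smul_add,
      hadd _ _ (hN v n (by omega)) (hN w n (by omega))
        (by rw [← smul_add]; exact hN _ n (by omega)), smul_add]
  · show E0 v = e v
    rw [hE0 v 1 one_pos (by simpa using hv)]
    simp

/-- A non-special tuple of `g` places avoiding a finite set. -/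
theorem exists_nonspecial_tuple (s : Finset (Place ℂ F)) :
    ∃ P : Fin (genusFF ℂ F) → Place ℂ F, Function.Injective P ∧ (∀ j, P j ∉ s) ∧
      FF.hOne (∑ j, Finsupp.single (P j) 1) = 0 ∧
      FF.ell (∑ j, Finsupp.single (P j) 1) = 1 := by
  classical
  haveI := FF.infinite_places (K := ℂ) (F := F)
  obtain ⟨t, ht, hsub, -, hz⟩ := FF.exists_nonspecial (K := ℂ) (F := F) (ι := Unit)
    (S := (↑s : Set (Place ℂ F))ᶜ) (Set.Finite.infinite_compl s.finite_toSet) (fun _ => 0)
    (fun _ => map_zero _)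
  refine ⟨fun j => ((t.equivFinOfCardEq ht).symm j : Place ℂ F),
    Subtype.val_injective.comp (Equiv.injective _), fun j => ?_, ?_⟩
  · exact hsub ((t.equivFinOfCardEq ht).symm j).2
  · have e : ∑ j, Finsupp.single (((t.equivFinOfCardEq ht).symm j : Place ℂ F)) (1 : ℤ) =
        ∑ v ∈ t, Finsupp.single v 1 := by
      rw [Equiv.sum_comp (t.equivFinOfCardEq ht).symm
        (fun v : t => Finsupp.single (v : Place ℂ F) (1 : ℤ))]
      exact Finset.sum_coe_sort t fun v => Finsupp.single v (1 : ℤ)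
    obtain ⟨h1, h2⟩ := hz ()
    rw [zero_add] at h1 h2
    exact ⟨e ▸ h1, e ▸ h2⟩

section Pairs

variable {a b : ℕ} (P : Fin a → Place ℂ F) (Q : Fin b → Place ℂ F)

theorem pts_append (x : Fin a → ℂ) (y : Fin b → ℂ) :
    pts (Fin.append P Q) (Fin.append x y) = Fin.append (pts P x) (pts Q y) := by
  funext i
  refine Fin.addCases (fun j => ?_) (fun j => ?_) i
  · unfold pts
    rw [Fin.append_left, Fin.append_left]
    rw [Fin.append_left]
  · unfold pts
    rw [Fin.append_right, Fin.append_right]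
    rw [Fin.append_right]

theorem dvs_append (x : Fin a → ℂ) (y : Fin b → ℂ) :
    dvs (Fin.append P Q) (Fin.append x y) = dvs P x + dvs Q y := by
  rw [dvs, Fin.sum_univ_add, pts_append]
  simp [dvs]

theorem theta_append (x : Fin a → ℂ) (y : Fin b → ℂ) :
    theta (Fin.append P Q) (Fin.append x y) = theta P x + theta Q y := by
  funext i
  simp [theta, Fin.sum_univ_add]

/-- The local Abel lemma for a pair of tuples. -/
theorem exists_pair_abel (hP : Function.Injective P) (hQ : Function.Injective Q)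
    (hPQ : ∀ i j, P i ≠ Q j) (h1 : FF.hOne (∑ j, Finsupp.single (P j) 1) = 0) :
    ∃ ρ : ℝ, 0 < ρ ∧ ∀ (x x' : Fin a → ℂ) (y y' : Fin b → ℂ), ‖x‖ < ρ → ‖x'‖ < ρ → ‖y‖ < ρ →
      ‖y'‖ < ρ → theta P x + theta Q y = theta P x' + theta Q y' →
      cls F (dvs P x) + cls F (dvs Q y) = cls F (dvs P x') + cls F (dvs Q y') := by
  have hinj : Function.Injective (Fin.append P Q) := by
    intro i j
    refine Fin.addCases (fun i => ?_) (fun i => ?_) i <;>
      refine Fin.addCases (fun j => ?_) (fun j => ?_) j <;>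
        simp only [Fin.append_left, Fin.append_right] <;> intro h
    · rw [hP h]
    · exact absurd h (hPQ i j)
    · exact absurd h.symm (hPQ j i)
    · rw [hQ h]
  have h1' : FF.hOne (∑ j, Finsupp.single (Fin.append P Q j) (1 : ℤ)) = 0 := by
    refine Nat.eq_zero_of_le_zero (h1 ▸ FF.hOne_antitone ?_)
    rw [Fin.sum_univ_add]
    simp only [Fin.append_left, Fin.append_right]
    exact le_add_of_nonneg_right (Finset.sum_nonneg fun j _ => Finsupp.single_nonneg.mpr zero_le_one)
  obtain ⟨ρ, hρ, -, hab⟩ := exists_local_abel (Fin.append P Q) hinj h1'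
  refine ⟨ρ, hρ, fun x x' y y' hx hx' hy hy' h => ?_⟩
  have hn : ∀ (x : Fin a → ℂ) (y : Fin b → ℂ), ‖x‖ < ρ → ‖y‖ < ρ → ‖Fin.append x y‖ < ρ := by
    intro x y hx hy
    rw [pi_norm_lt_iff hρ]
    intro i
    refine Fin.addCases (fun j => ?_) (fun j => ?_) i
    · rw [Fin.append_left]; exact (norm_le_pi_norm x j).trans_lt hx
    · rw [Fin.append_right]; exact (norm_le_pi_norm y j).trans_lt hy
  rw [← map_add, ← map_add, ← dvs_append, ← dvs_append]
  exact hab _ _ (hn x y hx hy) (hn x' y' hx' hy') (by rw [theta_append, theta_append, h])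

end Pairs

section Exp

/-- A local inverse of the Abel–Jacobi map at a non-special `g`-tuple. -/
def IsSol (P : Fin (genusFF ℂ F) → Place ℂ F)
    (s : (Fin (genusFF ℂ F) → ℂ) → (Fin (genusFF ℂ F) → ℂ)) : Prop :=
  s 0 = 0 ∧ ContinuousAt s 0 ∧ ∀ᶠ v in 𝓝 0, theta P (s v) = v

/-- The Abel–Jacobi map has a local inverse at a non-special tuple. -/
theorem exists_isSol {P : Fin (genusFF ℂ F) → Place ℂ F} (hP : Function.Injective P)
    (h1 : FF.hOne (∑ j, Finsupp.single (P j) 1) = 0) : ∃ s, IsSol P s := by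
  have hs := surjective_of_hOne_eq_zero P hP h1
  have hb : Function.Bijective (dTheta P 0).toLinearMap :=
    ⟨LinearMap.injective_iff_surjective.mpr hs, hs⟩
  let e := (LinearEquiv.ofBijective (dTheta P 0).toLinearMap hb).toContinuousLinearEquiv
  have h : HasStrictFDerivAt (theta P)
      (e : (Fin (genusFF ℂ F) → ℂ) →L[ℂ] (Fin (genusFF ℂ F) → ℂ)) 0 :=
    (hasStrictFDerivAt_theta P (inBalls_zero P)).congr_fderiv
      (ContinuousLinearMap.ext fun _ => rfl)
  refine ⟨h.localInverse (theta P) e 0, ?_, ?_, ?_⟩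
  · have := h.eventually_left_inverse.self_of_nhds
    rwa [theta_zero] at this
  · have := h.localInverse_continuousAt
    rwa [theta_zero] at this
  · have := h.eventually_right_inverse
    rwa [theta_zero] at this

variable {P Q : Fin (genusFF ℂ F) → Place ℂ F}
  {s t : (Fin (genusFF ℂ F) → ℂ) → (Fin (genusFF ℂ F) → ℂ)}

/-- The local exponential map at `P`. -/
def expAt (P : Fin (genusFF ℂ F) → Place ℂ F)
    (s : (Fin (genusFF ℂ F) → ℂ) → (Fin (genusFF ℂ F) → ℂ)) (v : Fin (genusFF ℂ F) → ℂ) :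
    Pic0 ℂ F :=
  cls F (dvs P (s v)) - cls F (dvs P 0)

theorem IsSol.eventually_norm_lt (hs : IsSol P s) {ρ : ℝ} (hρ : 0 < ρ) :
    ∀ᶠ v in 𝓝 0, ‖s v‖ < ρ ∧ theta P (s v) = v := by
  refine Eventually.and ?_ hs.2.2
  have h : Tendsto s (𝓝 0) (𝓝 0) := by
    have := hs.2.1.tendsto
    rwa [hs.1] at this
  exact (tendsto_zero_iff_norm_tendsto_zero.mp h).eventually (gt_mem_nhds hρ)

theorem expAt_zero (hs : IsSol P s) : expAt P s 0 = 0 := by
  rw [expAt, hs.1, sub_self]

theorem eventually_expAt_add (hP : Function.Injective P) (hQ : Function.Injective Q)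
    (hPQ : ∀ i j, P i ≠ Q j) (h1 : FF.hOne (∑ j, Finsupp.single (P j) 1) = 0)
    (hs : IsSol P s) (ht : IsSol Q t) :
    ∃ δ : ℝ, 0 < δ ∧ ∀ v w, ‖v‖ < δ → ‖w‖ < δ → ‖v + w‖ < δ →
      expAt P s v + expAt Q t w = expAt P s (v + w) := by
  obtain ⟨ρ, hρ, hab⟩ := exists_pair_abel P Q hP hQ hPQ h1
  obtain ⟨δ, hδ, hδ'⟩ := Metric.eventually_nhds_iff.mp
    ((hs.eventually_norm_lt hρ).and (ht.eventually_norm_lt hρ))
  simp only [dist_zero_right] at hδ'
  refine ⟨δ, hδ, fun v w hv hw hvw => ?_⟩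
  obtain ⟨⟨h1v, h2v⟩, -⟩ := hδ' hv
  obtain ⟨-, h1w, h2w⟩ := hδ' hw
  obtain ⟨⟨h1s, h2s⟩, -⟩ := hδ' hvw
  have h := hab (s v) (s (v + w)) (t w) 0 h1v h1s h1w (by simpa using hρ)
    (by rw [h2v, h2w, h2s, theta_zero, add_zero])
  rw [expAt, expAt, expAt, sub_add_sub_comm, h]
  abel

theorem eventually_expAt_eq (hP : Function.Injective P) (hQ : Function.Injective Q)
    (hPQ : ∀ i j, P i ≠ Q j) (h1 : FF.hOne (∑ j, Finsupp.single (P j) 1) = 0)
    (hs : IsSol P s) (ht : IsSol Q t) :
    ∀ᶠ w in 𝓝 0, expAt Q t w = expAt P s w := by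
  obtain ⟨δ, hδ, h⟩ := eventually_expAt_add hP hQ hPQ h1 hs ht
  refine Metric.eventually_nhds_iff.mpr ⟨δ, hδ, fun w hw => ?_⟩
  rw [dist_zero_right] at hw
  have := h 0 w (by simpa using hδ) hw (by simpa using hw)
  rwa [expAt_zero hs, zero_add, zero_add] at this

theorem eventually_eq_zero_of_expAt (hP : Function.Injective P)
    (hell : FF.ell (∑ j, Finsupp.single (P j) 1) = 1) (hs : IsSol P s) :
    ∀ᶠ v in 𝓝 0, expAt P s v = 0 → v = 0 := by
  classical
  obtain ⟨δ, hδ, hinj⟩ := Metric.eventually_nhds_iff.mp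
    ((eventually_inBalls P (inBalls_zero P)).and (eventually_injective_pts P hP))
  filter_upwards [hs.eventually_norm_lt hδ] with v hv h0
  set x := s v with hx
  rw [expAt, ← map_sub] at h0
  have hp := isPrincipal_of_cls_eq_zero (by rw [map_sub, degree_dvs, degree_dvs, sub_self]) h0
  rw [← dvs_zero] at hell
  obtain ⟨E, -, huniq⟩ := FF.existsUnique_effective_of_ell_eq_one hell
  have hE1 := huniq (dvs P x) ⟨dvs_nonneg P x, hp⟩
  have hE2 := huniq (dvs P 0) ⟨dvs_nonneg P 0, by
    rw [sub_self]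
    exact (Divisor.principal (K := ℂ) (F := F)).zero_mem⟩
  have heq : dvs P x = dvs P 0 := hE1.trans hE2.symm
  have hxb : InBalls P x ∧ Function.Injective (pts P x) := hinj (by rw [dist_zero_right]; exact hv.1)
  have hx0 : x = 0 := by
    funext j
    have h1 := dvs_apply_pts P hxb.2 j
    rw [heq] at h1
    obtain ⟨k, hk⟩ : ∃ k, pts P (0 : Fin _ → ℂ) k = pts P x j := by
      by_contra hcon
      rw [dvs_apply_of_ne P fun k hk => hcon ⟨k, hk⟩] at h1
      exact zero_ne_one h1
    rcases eq_or_ne k j with rfl | hkj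
    · exact ((chartOf (P k)).pt_injOn (hxb.1 k) (inBalls_zero P k) hk.symm)
    · exfalso
      have hu : ‖Function.update (0 : Fin (genusFF ℂ F) → ℂ) j (x j)‖ < δ := by
        rw [pi_norm_lt_iff hδ]
        intro i
        rcases eq_or_ne i j with rfl | hij
        · rw [Function.update_self]; exact (norm_le_pi_norm x i).trans_lt hv.1
        · rw [Function.update_of_ne hij]; simpa using hδ
      refine hkj ((hinj (by rw [dist_zero_right]; exact hu)).2 ?_)
      simp only [pts, Function.update_self, Function.update_of_ne hkj]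
      exact hk
  rw [← hv.2, hx0, theta_zero]

end Exp

theorem cls_basePlace : cls F (Finsupp.single (basePlace F) 1) = 0 := by
  show Pic0.mk (toDegZero F (Finsupp.single (basePlace F) 1)) = 0
  rw [show toDegZero F (Finsupp.single (basePlace F) 1) = 0 from Subtype.ext (by
    show Finsupp.single (basePlace F) (1 : ℤ) - Finsupp.single (basePlace F)
      (Divisor.degree (Finsupp.single (basePlace F) (1 : ℤ))) = 0
    rw [FF.degree_single_one, sub_self]), Pic0.mk_zero]

variable (F)

/-- `Pic⁰` of a complex function field is a quotient of `ℂ^g` by a cocompact discrete subgroup. -/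
theorem exists_exponential :
    ∃ E : (Fin (genusFF ℂ F) → ℂ) →+ Pic0 ℂ F, Function.Surjective E ∧
      (∃ δ > 0, ∀ v, ‖v‖ < δ → E v = 0 → v = 0) ∧
      ∃ R : ℝ, ∀ v, ∃ w, ‖w‖ ≤ R ∧ E w = E v := by
  classical
  obtain ⟨P, hP, -, hP1, hPell⟩ := exists_nonspecial_tuple (F := F) ∅
  obtain ⟨s, hs⟩ := exists_isSol hP hP1
  obtain ⟨Q, hQ, hQP, hQ1, -⟩ := exists_nonspecial_tuple (F := F) (Finset.univ.image P)
  obtain ⟨t, ht⟩ := exists_isSol hQ hQ1
  have hPQ : ∀ i j, P i ≠ Q j := fun i j h => hQP j (h ▸ Finset.mem_image_of_mem P (Finset.mem_univ i))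
  obtain ⟨δ₁, hδ₁, hadd⟩ := eventually_expAt_add hP hQ hPQ hP1 hs ht
  obtain ⟨δ₂, hδ₂, hsame⟩ := Metric.eventually_nhds_iff.mp
    (eventually_expAt_eq hP hQ hPQ hP1 hs ht)
  set δ := min δ₁ δ₂ with hδdef
  have hδ : 0 < δ := lt_min hδ₁ hδ₂
  obtain ⟨E, hE⟩ := exists_addHom_of_locally_additive (expAt P s) hδ fun v w hv hw hvw => by
    rw [← hadd v w (hv.trans_le (min_le_left _ _)) (hw.trans_le (min_le_left _ _))
      (hvw.trans_le (min_le_left _ _)),
      hsame (show dist w 0 < δ₂ by rw [dist_zero_right]; exact hw.trans_le (min_le_right _ _))]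
  -- the chart at a place lifts through `E`
  have hpoint : ∀ p : Place ℂ F, ∃ d > 0, d ≤ (chartOf p).r ∧ ∀ u ∈ Metric.ball (0 : ℂ) d,
      cls F (Finsupp.single ((chartOf p).pt u) 1) =
        cls F (Finsupp.single p 1) + E (fun i => prim p i u) := by
    intro p
    obtain ⟨Q', hQ', hQ'P, hQ'1, -⟩ :=
      exists_nonspecial_tuple (F := F) (insert p (Finset.univ.image P))
    obtain ⟨t', ht'⟩ := exists_isSol hQ' hQ'1
    have hPQ' : ∀ i j, P i ≠ Q' j := fun i j h => hQ'P j
      (Finset.mem_insert_of_mem (h ▸ Finset.mem_image_of_mem P (Finset.mem_univ i)))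
    have hagree := eventually_expAt_eq hP hQ' hPQ' hP1 hs ht'
    obtain ⟨ρ, hρ, hab⟩ := exists_pair_abel Q' (fun _ : Fin 1 => p) hQ'
      (fun _ _ _ => Subsingleton.elim _ _)
      (fun i _ h => hQ'P i (by rw [h]; exact Finset.mem_insert_self p _)) hQ'1
    have hI : Tendsto (fun u : ℂ => fun i => -prim p i u) (𝓝 0) (𝓝 0) := by
      refine tendsto_pi_nhds.mpr fun i => ?_
      have h := (analyticAt_prim p i (chartOf p).zero_mem).continuousAt.tendsto.neg
      rwa [prim_zero, neg_zero] at h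
    have hev := hI.eventually (hagree.and ((ht'.eventually_norm_lt hρ).and
      (Metric.ball_mem_nhds (0 : Fin (genusFF ℂ F) → ℂ) hδ)))
    obtain ⟨d, hd, hd'⟩ := Metric.eventually_nhds_iff.mp (hev.and
      ((Metric.ball_mem_nhds (0 : ℂ) hρ)))
    refine ⟨min d (chartOf p).r, lt_min hd (chartOf p).r_pos, min_le_right _ _, fun u hu => ?_⟩
    obtain ⟨⟨hag, ⟨hsn, hth⟩, hvδ⟩, huρ⟩ :=
      hd' (show dist u 0 < d from (Metric.mem_ball.mp hu).trans_le (min_le_left _ _))
    set v : Fin (genusFF ℂ F) → ℂ := fun i => -prim p i u with hv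
    have h0 : ‖(0 : Fin (genusFF ℂ F) → ℂ)‖ < ρ := by simpa using hρ
    have h01 : ‖(0 : Fin 1 → ℂ)‖ < ρ := by simpa using hρ
    have hu1 : ‖(fun _ : Fin 1 => u)‖ < ρ :=
      (pi_norm_lt_iff hρ).mpr fun _ => mem_ball_zero_iff.mp huρ
    have hkey := hab (t' v) 0 (fun _ => u) 0 hsn h0 hu1 h01 (by
      rw [hth, theta_zero, theta_zero, add_zero]
      funext i
      simp [theta, v])
    have hdv : dvs (fun _ : Fin 1 => p) (fun _ => u) = Finsupp.single ((chartOf p).pt u) 1 := by
      simp [dvs, pts]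
    have hdv0 : dvs (fun _ : Fin 1 => p) 0 = Finsupp.single p 1 := by
      rw [dvs_zero]; simp
    rw [hdv, hdv0] at hkey
    have hEv : E v = expAt Q' t' v := by
      rw [hE v (mem_ball_zero_iff.mp hvδ), hag]
    rw [show (fun i => prim p i u) = -v from funext fun i => by simp [v], map_neg, hEv, expAt]
    rw [← sub_eq_zero] at hkey ⊢
    rw [← hkey]
    abel
  choose d hd hdr hpt using hpoint
  -- every point class is in the image
  have hS : {w : Place ℂ F | cls F (Finsupp.single w 1) ∈ E.range} = Set.univ := by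
    refine (eq_empty_or_univ chartOf _ fun v => ⟨d v, hd v, fun z hz => ?_⟩).resolve_left fun h => ?_
    · show cls F _ ∈ E.range ↔ cls F _ ∈ E.range
      rw [hpt v z hz]
      exact AddSubgroup.add_mem_cancel_right _ ⟨_, rfl⟩
    · have : basePlace F ∈ ({w : Place ℂ F | cls F (Finsupp.single w 1) ∈ E.range}) := by
        show _ ∈ E.range
        rw [cls_basePlace]; exact zero_mem _
      rw [h] at this
      exact this
  have hsurj : Function.Surjective E := by
    intro x
    obtain ⟨D, rfl⟩ := Pic0.mk_surjective x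
    rw [← cls_of_degree_zero]
    show cls F (D : Divisor ℂ F) ∈ E.range
    generalize (D : Divisor ℂ F) = D'
    induction D' using Finsupp.induction with
    | zero => rw [map_zero]; exact zero_mem _
    | single_add v n D' _ _ ih =>
      rw [map_add]
      refine add_mem ?_ ih
      have hv : cls F (Finsupp.single v 1) ∈ E.range := Set.eq_univ_iff_forall.mp hS v
      rw [← mul_one n, ← smul_eq_mul, ← Finsupp.smul_single, map_zsmul]
      exact AddSubgroup.zsmul_mem _ hv n
  -- a bounded set of lifts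
  have hbound : ∀ v : Place ℂ F, ∃ (ρ C : ℝ), 0 < ρ ∧ ρ ≤ (chartOf v).r ∧ 0 ≤ C ∧
      ∀ u ∈ Metric.ball (0 : ℂ) ρ, ∃ w, ‖w‖ ≤ C ∧
        E w = cls F (Finsupp.single ((chartOf v).pt u) 1) := by
    intro v
    obtain ⟨L, hL⟩ := hsurj (cls F (Finsupp.single v 1))
    have hsub : Metric.closedBall (0 : ℂ) (d v / 2) ⊆ Metric.ball (0 : ℂ) (chartOf v).r :=
      Metric.closedBall_subset_ball (lt_of_lt_of_le (half_lt_self (hd v)) (hdr v))
    have hc : ContinuousOn (fun u : ℂ => fun i => prim v i u)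
        (Metric.closedBall (0 : ℂ) (d v / 2)) :=
      continuousOn_pi.mpr fun i u hu =>
        (analyticAt_prim v i (hsub hu)).continuousAt.continuousWithinAt
    obtain ⟨B, hB⟩ := (isCompact_closedBall (0 : ℂ) (d v / 2)).exists_bound_of_continuousOn hc
    refine ⟨d v / 2, ‖L‖ + max B 0, half_pos (hd v), (half_le_self (hd v).le).trans (hdr v),
      add_nonneg (norm_nonneg _) (le_max_right _ _), fun u hu => ⟨L + fun i => prim v i u, ?_, ?_⟩⟩
    · exact (norm_add_le _ _).trans (add_le_add le_rfl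
        ((hB u (Metric.ball_subset_closedBall hu)).trans (le_max_left _ _)))
    · rw [map_add, hL, hpt v u (Metric.ball_subset_ball (half_le_self (hd v).le) hu)]
  choose ρ C hρ hρr hC hlift using hbound
  obtain ⟨T, hT⟩ := exists_finite_cover chartOf ρ hρ hρr
  set C0 := ∑ v ∈ T, C v with hC0
  have hall : ∀ w : Place ℂ F, ∃ u, ‖u‖ ≤ C0 ∧ E u = cls F (Finsupp.single w 1) := by
    intro w
    obtain ⟨v, hv, z, hz, rfl⟩ := hT w
    obtain ⟨u, hu, hEu⟩ := hlift v z hz
    exact ⟨u, hu.trans (Finset.single_le_sum (fun v _ => hC v) hv), hEu⟩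
  choose U hU hEU using hall
  refine ⟨E, hsurj, ?_, (genusFF ℂ F : ℝ) * C0, fun x => ?_⟩
  · obtain ⟨δ₃, hδ₃, h3⟩ := Metric.eventually_nhds_iff.mp
      (eventually_eq_zero_of_expAt hP hPell hs)
    refine ⟨min δ δ₃, lt_min hδ hδ₃, fun v hv h => ?_⟩
    rw [hE v (hv.trans_le (min_le_left _ _))] at h
    exact h3 (show dist v 0 < δ₃ by rw [dist_zero_right]; exact hv.trans_le (min_le_right _ _)) h
  · obtain ⟨D, hD⟩ := Pic0.mk_surjective (E x)
    set D' : Divisor ℂ F := (D : Divisor ℂ F) +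
      (genusFF ℂ F : ℤ) • Finsupp.single (basePlace F) 1 with hD'
    have hdeg : Divisor.degree D' = (genusFF ℂ F : ℤ) := by
      rw [hD', map_add, map_zsmul, FF.degree_single_one, Divisor.mem_degZero.mp D.2]
      simp
    obtain ⟨f, hf0, hf⟩ := FF.exists_mem_of_genusFF_le_degree hdeg.ge
    set G := D' + FF.divisorOf f with hG
    have hclsG : cls F G = E x := by
      have hp : Divisor.IsPrincipal (FF.divisorOf f : Divisor ℂ F) :=
        ⟨f, hf0, fun v => FF.divisorOf_apply f v⟩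
      rw [hG, hD', map_add, map_add, map_zsmul, cls_basePlace, smul_zero, add_zero,
        cls_eq_zero hp, add_zero, cls_of_degree_zero, hD]
    have hGdeg : Divisor.degree G = (genusFF ℂ F : ℤ) := by
      rw [hG, map_add, FF.degree_divisorOf, hdeg, add_zero]
    have hGnn : ∀ w, 0 ≤ G w := fun w => by
      rw [hG, Finsupp.add_apply, FF.divisorOf_apply]; exact hf w
    refine ⟨G.sum fun w k => k • U w, ?_, ?_⟩
    · rw [← Int.cast_natCast (genusFF ℂ F), ← hGdeg, FF.degree_eq_sum]
      simp only [Finsupp.sum]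
      rw [Int.cast_sum, Finset.sum_mul]
      refine (norm_sum_le _ _).trans (Finset.sum_le_sum fun w _ => ?_)
      rw [← Int.cast_smul_eq_zsmul ℂ, norm_smul, Complex.norm_intCast,
        abs_of_nonneg (by exact_mod_cast hGnn w)]
      exact mul_le_mul_of_nonneg_left (hU w) (by exact_mod_cast hGnn w)
    · rw [← hclsG]
      conv_rhs => rw [← Finsupp.sum_single G]
      simp only [Finsupp.sum, map_sum, map_zsmul, hEU]
      refine Finset.sum_congr rfl fun w _ => ?_
      rw [← map_zsmul, Finsupp.smul_single, smul_eq_mul, mul_one]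

end FLTAgent.Pic0Tors
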